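import Mathlib

/-!
# Theta series sub-project of S16: shared definitions

`ThetaData p` packages an even positive definite quaternary lattice of level `p` and
determinant `p ^ 2`, by its Gram matrix `A`, the Gram matrix `B = p A⁻¹` of the rescaled dual,
and a rational `LDL` decomposition of `A` (which gives positive definiteness and `det A = p ^ 2`).
-/

set_option autoImplicit false

namespace Fermat.Agent.S16

open Matrix Complex

/-- Lattice data for a theta series of weight `2` and level `p`. -/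
structure ThetaData (p : ℕ) where
  A : Matrix (Fin 4) (Fin 4) ℤ
  B : Matrix (Fin 4) (Fin 4) ℤ
  A_symm : A.IsSymm
  B_symm : B.IsSymm
  mul_eq : A * B = (p : ℤ) • (1 : Matrix (Fin 4) (Fin 4) ℤ)
  A_even : ∀ i, Even (A i i)
  B_even : ∀ i, Even (B i i)
  δ : Fin 4 → ℚ
  δ_pos : ∀ i, 0 < δ i
  δ_prod : ∏ i, δ i = (p : ℚ) ^ 2
  U : Matrix (Fin 4) (Fin 4) ℚ
  U_diag : ∀ i, U i i = 1
  U_lower : ∀ i j, j < i → U i j = 0
  ldl : A.map (Int.cast : ℤ → ℚ) = Uᵀ * Matrix.diagonal δ * U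

/-- The integral quadratic form `x ↦ xᵀ M x` (twice the form `Q`). -/
def qfZ (M : Matrix (Fin 4) (Fin 4) ℤ) (x : Fin 4 → ℤ) : ℤ := x ⬝ᵥ M *ᵥ x

/-- The real quadratic form `v ↦ vᵀ M v`. -/
def qfR (M : Matrix (Fin 4) (Fin 4) ℤ) (v : Fin 4 → ℝ) : ℝ :=
  v ⬝ᵥ (M.map (Int.cast : ℤ → ℝ)) *ᵥ v

/-- The theta function `Θ_M(z) = ∑_{x ∈ ℤ⁴} exp(π i z xᵀ M x)`, as a function on `ℂ`. -/
noncomputable def thetaFn (M : Matrix (Fin 4) (Fin 4) ℤ) (z : ℂ) : ℂ :=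
  ∑' x : Fin 4 → ℤ, cexp (Real.pi * I * z * (qfZ M x : ℂ))

/-- The quaternary Gauss sum `∑_{g mod t} exp(π i β gᵀ M g / t)` (well defined for even `M`). -/
noncomputable def gaussSum4 (M : Matrix (Fin 4) (Fin 4) ℤ) (β : ℤ) (t : ℕ) : ℂ :=
  ∑ g : Fin 4 → Fin t, cexp (Real.pi * I * β * (qfZ M (fun i => ((g i : ℕ) : ℤ)) : ℂ) / t)

theorem qfZ_cast (M : Matrix (Fin 4) (Fin 4) ℤ) (x : Fin 4 → ℤ) :
    ((qfZ M x : ℤ) : ℝ) = qfR M (fun i => (x i : ℝ)) := by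
  simp [qfZ, qfR, dotProduct, mulVec, Finset.mul_sum]

end Fermat.Agent.S16
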