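import Mathlib

/-!
# S16 / Theta (Θ0): the quaternary lattice of level `p`

Parameters `r a k s : ℤ` with `0 < r`, `4 k = 1 + r`, `r s = a² + p`.  The quadratic form

`Q(x) = x₀² + x₀x₁ + k x₁² + a x₀x₃ - a x₁x₂ + s x₂² + s x₂x₃ + k s x₃²`

is `xᵀ A x / 2` for the even symmetric matrix `A` below; `B = p A⁻¹` is again integral and
`wᵀ B w / 2 = Q (sig w)` for the signed permutation `sig w = (w₃, -w₂, w₁, -w₀)`.
Everything is stated over an arbitrary commutative ring so that it can be used over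
`ℤ`, `ZMod c`, `ℝ` and `ℂ`.
-/

set_option autoImplicit false

namespace Fermat.Agent.S16

/-- Parameters of the quaternary lattice of level `p`. -/
structure ThetaParams (p : ℕ) where
  r : ℤ
  a : ℤ
  k : ℤ
  s : ℤ
  r_pos : 0 < r
  four_k : 4 * k = 1 + r
  r_mul_s : r * s = a ^ 2 + p

namespace ThetaParams

variable {p : ℕ} (D : ThetaParams p) {R : Type*} [CommRing R]

/-- The quadratic form `Q = xᵀAx/2`. -/
def Q (x : Fin 4 → R) : R :=
  x 0 ^ 2 + x 0 * x 1 + (D.k : R) * x 1 ^ 2 + (D.a : R) * x 0 * x 3 - (D.a : R) * x 1 * x 2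
    + (D.s : R) * x 2 ^ 2 + (D.s : R) * x 2 * x 3 + (D.k : R) * (D.s : R) * x 3 ^ 2

/-- `x ↦ A x`. -/
def mulA (x : Fin 4 → R) : Fin 4 → R :=
  ![2 * x 0 + x 1 + (D.a : R) * x 3,
    x 0 + 2 * (D.k : R) * x 1 - (D.a : R) * x 2,
    -(D.a : R) * x 1 + 2 * (D.s : R) * x 2 + (D.s : R) * x 3,
    (D.a : R) * x 0 + (D.s : R) * x 2 + 2 * (D.k : R) * (D.s : R) * x 3]

/-- `w ↦ B w`, `B = p A⁻¹`. -/
def mulB (w : Fin 4 → R) : Fin 4 → R :=
  ![2 * (D.k : R) * (D.s : R) * w 0 - (D.s : R) * w 1 - (D.a : R) * w 3,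
    -(D.s : R) * w 0 + 2 * (D.s : R) * w 1 + (D.a : R) * w 2,
    (D.a : R) * w 1 + 2 * (D.k : R) * w 2 - w 3,
    -(D.a : R) * w 0 - w 2 + 2 * w 3]

end ThetaParams

/-- The signed permutation `(w₀,w₁,w₂,w₃) ↦ (w₃,-w₂,w₁,-w₀)`. -/
def th_sig {R : Type*} [CommRing R] (w : Fin 4 → R) : Fin 4 → R :=
  ![w 3, -w 2, w 1, -w 0]

/-- The standard bilinear pairing on `R⁴`, written out. -/
def th_dot {R : Type*} [CommRing R] (x y : Fin 4 → R) : R :=
  x 0 * y 0 + x 1 * y 1 + x 2 * y 2 + x 3 * y 3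

section identities

variable {p : ℕ} (D : ThetaParams p) {R : Type*} [CommRing R]

theorem th_dot_eq_sum (x y : Fin 4 → R) : th_dot x y = ∑ i, x i * y i := by
  simp [th_dot, Fin.sum_univ_four]

theorem th_dot_comm (x y : Fin 4 → R) : th_dot x y = th_dot y x := by
  simp only [th_dot]; ring

theorem th_dot_add_left (x y z : Fin 4 → R) : th_dot (x + y) z = th_dot x z + th_dot y z := by
  simp only [th_dot, Pi.add_apply]; ring

theorem th_dot_add_right (x y z : Fin 4 → R) : th_dot x (y + z) = th_dot x y + th_dot x z := by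
  simp only [th_dot, Pi.add_apply]; ring

theorem th_dot_smul_left (c : R) (x y : Fin 4 → R) : th_dot (c • x) y = c * th_dot x y := by
  simp only [th_dot, Pi.smul_apply, smul_eq_mul]; ring

theorem th_dot_smul_right (c : R) (x y : Fin 4 → R) : th_dot x (c • y) = c * th_dot x y := by
  simp only [th_dot, Pi.smul_apply, smul_eq_mul]; ring

private theorem th_four_k : (4 : R) * (D.k : R) = 1 + (D.r : R) := by
  have := congrArg (Int.cast : ℤ → R) D.four_k
  push_cast at this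
  exact this

private theorem th_r_mul_s : (D.r : R) * (D.s : R) = (D.a : R) ^ 2 + (p : R) := by
  have := congrArg (Int.cast : ℤ → R) D.r_mul_s
  push_cast at this
  exact this

/-- `(4k-1) s = a² + p`, the form in which the relation is used. -/
theorem th_rel : (4 * (D.k : R) - 1) * (D.s : R) = (D.a : R) ^ 2 + (p : R) := by
  rw [← th_r_mul_s D, th_four_k D]; ring

theorem th_mulA_apply (x : Fin 4 → R) :
    D.mulA x = ![2 * x 0 + x 1 + (D.a : R) * x 3,
      x 0 + 2 * (D.k : R) * x 1 - (D.a : R) * x 2,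
      -(D.a : R) * x 1 + 2 * (D.s : R) * x 2 + (D.s : R) * x 3,
      (D.a : R) * x 0 + (D.s : R) * x 2 + 2 * (D.k : R) * (D.s : R) * x 3] := rfl

theorem th_mulB_apply (w : Fin 4 → R) :
    D.mulB w = ![2 * (D.k : R) * (D.s : R) * w 0 - (D.s : R) * w 1 - (D.a : R) * w 3,
      -(D.s : R) * w 0 + 2 * (D.s : R) * w 1 + (D.a : R) * w 2,
      (D.a : R) * w 1 + 2 * (D.k : R) * w 2 - w 3,
      -(D.a : R) * w 0 - w 2 + 2 * w 3] := rfl

/-- `A B = p`. -/
theorem th_mulA_mulB (w : Fin 4 → R) : D.mulA (D.mulB w) = (p : R) • w := by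
  have h := th_rel (R := R) D
  funext i
  fin_cases i
  · simp [ThetaParams.mulA, ThetaParams.mulB]; linear_combination (w 0) * h
  · simp [ThetaParams.mulA, ThetaParams.mulB]; linear_combination (w 1) * h
  · simp [ThetaParams.mulA, ThetaParams.mulB]; linear_combination (w 2) * h
  · simp [ThetaParams.mulA, ThetaParams.mulB]; linear_combination (w 3) * h

/-- `B A = p`. -/
theorem th_mulB_mulA (x : Fin 4 → R) : D.mulB (D.mulA x) = (p : R) • x := by
  have h := th_rel (R := R) D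
  funext i
  fin_cases i
  · simp [ThetaParams.mulA, ThetaParams.mulB]; linear_combination (x 0) * h
  · simp [ThetaParams.mulA, ThetaParams.mulB]; linear_combination (x 1) * h
  · simp [ThetaParams.mulA, ThetaParams.mulB]; linear_combination (x 2) * h
  · simp [ThetaParams.mulA, ThetaParams.mulB]; linear_combination (x 3) * h

/-- `2 Q(x) = xᵀ A x`. -/
theorem th_two_Q (x : Fin 4 → R) : 2 * D.Q x = th_dot x (D.mulA x) := by
  simp [ThetaParams.Q, ThetaParams.mulA, th_dot]; ring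

/-- Polarisation: `Q(x+y) = Q(x) + Q(y) + xᵀ A y`. -/
theorem th_Q_add (x y : Fin 4 → R) : D.Q (x + y) = D.Q x + D.Q y + th_dot x (D.mulA y) := by
  simp [ThetaParams.Q, ThetaParams.mulA, th_dot]; ring

theorem th_Q_smul (c : R) (x : Fin 4 → R) : D.Q (c • x) = c ^ 2 * D.Q x := by
  simp [ThetaParams.Q]; ring

theorem th_Q_neg (x : Fin 4 → R) : D.Q (-x) = D.Q x := by
  simp [ThetaParams.Q]

theorem th_Q_zero : D.Q (0 : Fin 4 → R) = 0 := by
  simp [ThetaParams.Q]

/-- `A` is symmetric. -/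
theorem th_dot_mulA_comm (x y : Fin 4 → R) : th_dot x (D.mulA y) = th_dot y (D.mulA x) := by
  simp [ThetaParams.mulA, th_dot]; ring

/-- `B` is symmetric. -/
theorem th_dot_mulB_comm (x y : Fin 4 → R) : th_dot x (D.mulB y) = th_dot y (D.mulB x) := by
  simp [ThetaParams.mulB, th_dot]; ring

theorem th_mulA_add (x y : Fin 4 → R) : D.mulA (x + y) = D.mulA x + D.mulA y := by
  funext i; fin_cases i <;> simp [ThetaParams.mulA] <;> ring

theorem th_mulB_add (x y : Fin 4 → R) : D.mulB (x + y) = D.mulB x + D.mulB y := by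
  funext i; fin_cases i <;> simp [ThetaParams.mulB] <;> ring

theorem th_mulA_smul (c : R) (x : Fin 4 → R) : D.mulA (c • x) = c • D.mulA x := by
  funext i; fin_cases i <;> simp [ThetaParams.mulA] <;> ring

theorem th_mulB_smul (c : R) (x : Fin 4 → R) : D.mulB (c • x) = c • D.mulB x := by
  funext i; fin_cases i <;> simp [ThetaParams.mulB] <;> ring

/-- `wᵀ B w / 2 = Q (sig w)`. -/
theorem th_two_Q_sig (w : Fin 4 → R) : 2 * D.Q (th_sig w) = th_dot w (D.mulB w) := by
  simp [ThetaParams.Q, ThetaParams.mulB, th_dot, th_sig]; ring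

/-- `Q(B w) = p · Q(sig w)`, i.e. `B A B = p B`. -/
theorem th_Q_mulB (w : Fin 4 → R) : D.Q (D.mulB w) = (p : R) * D.Q (th_sig w) := by
  have h := th_rel (R := R) D
  simp only [ThetaParams.Q, ThetaParams.mulB, th_sig]
  simp
  linear_combination
    ((D.k : R) * (D.s : R) * w 0 ^ 2 - (D.s : R) * w 0 * w 1 - (D.a : R) * w 0 * w 3
      + (D.s : R) * w 1 ^ 2 + (D.a : R) * w 1 * w 2 + (D.k : R) * w 2 ^ 2 - w 2 * w 3 + w 3 ^ 2) * h

theorem th_sig_sig (w : Fin 4 → R) : th_sig (th_sig w) = -w := by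
  funext i; fin_cases i <;> simp [th_sig]

theorem th_sig_add (x y : Fin 4 → R) : th_sig (x + y) = th_sig x + th_sig y := by
  funext i; fin_cases i <;> simp [th_sig] <;> ring

theorem th_sig_neg (x : Fin 4 → R) : th_sig (-x) = -th_sig x := by
  funext i; fin_cases i <;> simp [th_sig]

/-- The sum-of-squares (LDL) identity, denominators cleared. -/
theorem th_sos (x : Fin 4 → R) :
    4 * (D.r : R) * D.Q x =
      (D.r : R) * (2 * x 0 + x 1 + (D.a : R) * x 3) ^ 2
        + ((D.r : R) * x 1 - 2 * (D.a : R) * x 2 - (D.a : R) * x 3) ^ 2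
        + (p : R) * (2 * x 2 + x 3) ^ 2 + (D.r : R) * (p : R) * x 3 ^ 2 := by
  have h1 := th_four_k (R := R) D
  have h2 := th_r_mul_s (R := R) D
  simp only [ThetaParams.Q]
  linear_combination
    (4 * x 2 ^ 2 + 4 * x 2 * x 3 + x 3 ^ 2 + (D.r : R) * x 3 ^ 2) * h2
      + ((D.r : R) * x 1 ^ 2 + (D.r : R) * (D.s : R) * x 3 ^ 2) * h1

/-- Compatibility with ring homomorphisms. -/
theorem th_map_Q {S : Type*} [CommRing S] (f : R →+* S) (x : Fin 4 → R) :
    f (D.Q x) = D.Q (fun i => f (x i)) := by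
  simp [ThetaParams.Q]

theorem th_map_mulA {S : Type*} [CommRing S] (f : R →+* S) (x : Fin 4 → R) (i : Fin 4) :
    f (D.mulA x i) = D.mulA (fun j => f (x j)) i := by
  fin_cases i <;> simp [ThetaParams.mulA, map_ofNat]

theorem th_map_mulB {S : Type*} [CommRing S] (f : R →+* S) (x : Fin 4 → R) (i : Fin 4) :
    f (D.mulB x i) = D.mulB (fun j => f (x j)) i := by
  fin_cases i <;> simp [ThetaParams.mulB, map_ofNat]

end identities

section positivity

variable {p : ℕ} (D : ThetaParams p)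

/-- `Q` is positive definite over `ℝ` (for `p > 0`). -/
theorem th_Q_pos (hp : 0 < p) {x : Fin 4 → ℝ} (hx : x ≠ 0) : 0 < D.Q x := by
  have hr : (0 : ℝ) < (D.r : ℝ) := by exact_mod_cast D.r_pos
  have hp' : (0 : ℝ) < (p : ℝ) := by exact_mod_cast hp
  have hsos := th_sos (R := ℝ) D x
  by_contra hneg
  push Not at hneg
  have h0 : 4 * (D.r : ℝ) * D.Q x ≤ 0 := by nlinarith
  have t1 : 0 ≤ (D.r : ℝ) * (2 * x 0 + x 1 + (D.a : ℝ) * x 3) ^ 2 := by positivity
  have t2 : 0 ≤ ((D.r : ℝ) * x 1 - 2 * (D.a : ℝ) * x 2 - (D.a : ℝ) * x 3) ^ 2 := by positivity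
  have t3 : 0 ≤ (p : ℝ) * (2 * x 2 + x 3) ^ 2 := by positivity
  have t4 : 0 ≤ (D.r : ℝ) * (p : ℝ) * x 3 ^ 2 := by positivity
  have e4 : (D.r : ℝ) * (p : ℝ) * x 3 ^ 2 = 0 := by linarith
  have e3 : (p : ℝ) * (2 * x 2 + x 3) ^ 2 = 0 := by linarith
  have e2 : ((D.r : ℝ) * x 1 - 2 * (D.a : ℝ) * x 2 - (D.a : ℝ) * x 3) ^ 2 = 0 := by linarith
  have e1 : (D.r : ℝ) * (2 * x 0 + x 1 + (D.a : ℝ) * x 3) ^ 2 = 0 := by linarith
  have x3 : x 3 = 0 := by
    have : x 3 ^ 2 = 0 := by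
      rcases mul_eq_zero.mp e4 with h | h
      · exact absurd h (by positivity)
      · exact h
    exact pow_eq_zero_iff (two_ne_zero) |>.mp this
  have x2 : x 2 = 0 := by
    have : (2 * x 2 + x 3) ^ 2 = 0 := by
      rcases mul_eq_zero.mp e3 with h | h
      · exact absurd h hp'.ne'
      · exact h
    have := pow_eq_zero_iff (two_ne_zero) |>.mp this
    linarith
  have x1 : x 1 = 0 := by
    have := pow_eq_zero_iff (two_ne_zero) |>.mp e2
    rw [x2, x3] at this
    have h' : (D.r : ℝ) * x 1 = 0 := by linarith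
    rcases mul_eq_zero.mp h' with h | h
    · exact absurd h hr.ne'
    · exact h
  have x0 : x 0 = 0 := by
    have : (2 * x 0 + x 1 + (D.a : ℝ) * x 3) ^ 2 = 0 := by
      rcases mul_eq_zero.mp e1 with h | h
      · exact absurd h hr.ne'
      · exact h
    have := pow_eq_zero_iff (two_ne_zero) |>.mp this
    rw [x1, x3] at this
    linarith
  apply hx
  funext i
  fin_cases i <;> simp [x0, x1, x2, x3]

theorem th_Q_continuous : Continuous (fun x : Fin 4 → ℝ => D.Q x) := by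
  unfold ThetaParams.Q
  fun_prop

/-- A quantitative form of positive definiteness (sup norm on `ℝ⁴`). -/
theorem th_exists_lower_bound (hp : 0 < p) :
    ∃ c : ℝ, 0 < c ∧ ∀ x : Fin 4 → ℝ, c * ‖x‖ ^ 2 ≤ D.Q x := by
  have hcompact : IsCompact (Metric.sphere (0 : Fin 4 → ℝ) 1) := isCompact_sphere 0 1
  have hne : (Metric.sphere (0 : Fin 4 → ℝ) 1).Nonempty :=
    NormedSpace.sphere_nonempty.mpr zero_le_one
  obtain ⟨x₀, hx₀, hmin⟩ := hcompact.exists_isMinOn hne (th_Q_continuous D).continuousOn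
  have hx₀' : ‖x₀‖ = 1 := by simpa using hx₀
  have hx₀ne : x₀ ≠ 0 := by
    intro h
    rw [h, norm_zero] at hx₀'
    exact zero_ne_one hx₀'
  refine ⟨D.Q x₀, th_Q_pos D hp hx₀ne, fun x => ?_⟩
  by_cases hx : x = 0
  · simp [hx, th_Q_zero]
  · have hnx : ‖x‖ ≠ 0 := norm_ne_zero_iff.mpr hx
    have hmem : ‖x‖⁻¹ • x ∈ Metric.sphere (0 : Fin 4 → ℝ) 1 := by
      rw [mem_sphere_zero_iff_norm, norm_smul, norm_inv, norm_norm, inv_mul_cancel₀ hnx]
    have h1 : D.Q x₀ ≤ D.Q (‖x‖⁻¹ • x) := hmin hmem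
    rw [th_Q_smul] at h1
    have hpos : 0 < ‖x‖ ^ 2 := by positivity
    calc D.Q x₀ * ‖x‖ ^ 2 ≤ (‖x‖⁻¹ ^ 2 * D.Q x) * ‖x‖ ^ 2 :=
          mul_le_mul_of_nonneg_right h1 hpos.le
      _ = D.Q x := by field_simp

/-- `Q` of an integer vector, computed in `ℝ`. -/
theorem th_Q_cast_real (x : Fin 4 → ℤ) : ((D.Q x : ℤ) : ℝ) = D.Q (fun i => (x i : ℝ)) := by
  simpa using th_map_Q D (Int.castRingHom ℝ) x

theorem th_Q_int_pos (hp : 0 < p) {x : Fin 4 → ℤ} (hx : x ≠ 0) : 0 < D.Q x := by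
  have h : (0 : ℝ) < ((D.Q x : ℤ) : ℝ) := by
    rw [th_Q_cast_real]
    apply th_Q_pos D hp
    intro h0
    apply hx
    funext i
    have := congrFun h0 i
    simpa using this
  exact_mod_cast h

theorem th_Q_int_nonneg (hp : 0 < p) (x : Fin 4 → ℤ) : 0 ≤ D.Q x := by
  by_cases hx : x = 0
  · simp [hx, th_Q_zero]
  · exact (th_Q_int_pos D hp hx).le

theorem th_Q_int_eq_zero_iff (hp : 0 < p) (x : Fin 4 → ℤ) : D.Q x = 0 ↔ x = 0 := by
  constructor
  · intro h
    by_contra hx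
    exact (th_Q_int_pos D hp hx).ne' h
  · rintro rfl
    exact th_Q_zero D

/-- Only finitely many integer vectors have `Q ≤ n`. -/
theorem th_finite_Q_le (hp : 0 < p) (n : ℤ) : {x : Fin 4 → ℤ | D.Q x ≤ n}.Finite := by
  obtain ⟨c, hc, hbound⟩ := th_exists_lower_bound D hp
  obtain ⟨M, hM⟩ := exists_nat_gt (Real.sqrt ((n : ℝ) / c))
  have hsub : {x : Fin 4 → ℤ | D.Q x ≤ n} ⊆
      {x : Fin 4 → ℤ | ∀ i, x i ∈ Set.Icc (-(M : ℤ)) (M : ℤ)} := by
    intro x hx
    simp only [Set.mem_ofPred_eq] at hx ⊢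
    intro i
    have h1 : c * ‖(fun i => (x i : ℝ))‖ ^ 2 ≤ (n : ℝ) := by
      refine (hbound _).trans ?_
      rw [← th_Q_cast_real]
      exact_mod_cast hx
    have h2 : ‖(fun i => (x i : ℝ))‖ ^ 2 ≤ (n : ℝ) / c := by
      rw [le_div_iff₀ hc]; linarith
    have h3 : ‖(fun i => (x i : ℝ))‖ ≤ Real.sqrt ((n : ℝ) / c) := Real.le_sqrt_of_sq_le h2
    have h4 : |(x i : ℝ)| ≤ ‖(fun i => (x i : ℝ))‖ := by
      have := norm_le_pi_norm (fun i => (x i : ℝ)) i
      simpa [Real.norm_eq_abs] using this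
    have h5 : |(x i : ℝ)| < (M : ℝ) := lt_of_le_of_lt (h4.trans h3) hM
    have h6 : |x i| < (M : ℤ) := by exact_mod_cast h5
    rw [abs_lt] at h6
    exact ⟨h6.1.le, h6.2.le⟩
  refine Set.Finite.subset ?_ hsub
  exact Set.Finite.pi' (fun _ => Set.finite_Icc _ _)

/-- The set of representations of `n` by `Q`. -/
def th_repSet (n : ℤ) : Set (Fin 4 → ℤ) := {x | D.Q x = n}

theorem th_repSet_finite (hp : 0 < p) (n : ℤ) : (th_repSet D n).Finite :=
  (th_finite_Q_le D hp n).subset fun _ hx => le_of_eq hx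

/-- The representation numbers of `Q`. -/
noncomputable def th_rep (n : ℤ) : ℕ := Nat.card (th_repSet D n)

theorem th_repSet_zero (hp : 0 < p) : th_repSet D 0 = {0} := by
  ext x
  simp [th_repSet, th_Q_int_eq_zero_iff D hp]

theorem th_rep_zero (hp : 0 < p) : th_rep D 0 = 1 := by
  simp [th_rep, th_repSet_zero D hp]

/-- For `n ≠ 0` the representation number is even (`x ↦ -x` has no fixed point). -/
theorem th_rep_even (hp : 0 < p) {n : ℤ} (hn : n ≠ 0) : Even (th_rep D n) := by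
  classical
  have : Fintype (th_repSet D n) := (th_repSet_finite D hp n).fintype
  let σ : Equiv.Perm (th_repSet D n) :=
    { toFun := fun x => ⟨-x.1, by
        have := x.2
        simp only [th_repSet, Set.mem_ofPred_eq] at this ⊢
        rw [th_Q_neg]; exact this⟩
      invFun := fun x => ⟨-x.1, by
        have := x.2
        simp only [th_repSet, Set.mem_ofPred_eq] at this ⊢
        rw [th_Q_neg]; exact this⟩
      left_inv := fun x => by ext; simp
      right_inv := fun x => by ext; simp }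
  have hσ2 : σ ^ 2 = 1 := by
    ext x
    simp [σ, pow_two]
  have hsupp : σ.support = Finset.univ := by
    ext x
    simp only [Equiv.Perm.mem_support, Finset.mem_univ, iff_true]
    intro hfix
    have h1 : -x.1 = x.1 := congrArg Subtype.val hfix
    have h2 : x.1 = 0 := by
      funext i
      have := congrFun h1 i
      simp only [Pi.neg_apply, Pi.zero_apply] at this ⊢
      omega
    have h3 : D.Q x.1 = n := x.2
    rw [h2, th_Q_zero] at h3
    exact hn h3.symm
  have h2 := Equiv.Perm.two_dvd_card_support hσ2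
  rw [hsupp, Finset.card_univ] at h2
  rw [th_rep, Nat.card_eq_fintype_card]
  exact even_iff_two_dvd.mpr h2

end positivity

end Fermat.Agent.S16
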