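import Mathlib
import Fermat.Agent.S16.Theta.Quat

/-!
# S16 / Theta (Θ0, part 2): existence of the lattice parameters for every odd prime

* `p ≡ 3 mod 4`: `r = p, a = 0, s = 1`;
* `p ≡ 5 mod 8`: `r = (p+1)/2, a = 1, s = 2`;
* `p ≡ 1 mod 8`: a prime `r ≡ 3 mod 4` which is a non-residue mod `p` (Dirichlet), so that
  `-p` is a square mod `r` (quadratic reciprocity).
-/

set_option autoImplicit false

namespace Fermat.Agent.S16

/-- In `ZMod r` (`r` an odd prime) the product of two non-squares is a square. -/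
theorem th_isSquare_mul_of_not_isSquare {r : ℕ} [Fact r.Prime] (hr2 : r ≠ 2) {x y : ZMod r}
    (hx : ¬ IsSquare x) (hy : ¬ IsSquare y) : IsSquare (x * y) := by
  have hchar : ringChar (ZMod r) ≠ 2 := by rwa [ZMod.ringChar_zmod_n]
  have hx0 : x ≠ 0 := fun h => hx (h ▸ IsSquare.zero)
  have hy0 : y ≠ 0 := fun h => hy (h ▸ IsSquare.zero)
  have h1 := (quadraticChar_neg_one_iff_not_isSquare (F := ZMod r) (a := x)).mpr hx
  have h2 := (quadraticChar_neg_one_iff_not_isSquare (F := ZMod r) (a := y)).mpr hy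
  have h3 : quadraticChar (ZMod r) (x * y) = 1 := by
    rw [map_mul, h1, h2]; norm_num
  exact (quadraticChar_one_iff_isSquare (mul_ne_zero hx0 hy0)).mp h3

/-- For a prime `p ≡ 1 mod 4` there is a prime `r ≡ 3 mod 4`, `r > p`, such that `-p` is a
square modulo `r`. -/
theorem th_exists_aux_prime (p : ℕ) [Fact p.Prime] (hp : p % 4 = 1) :
    ∃ r : ℕ, r.Prime ∧ r % 4 = 3 ∧ ∃ a : ℕ, r ∣ a ^ 2 + p := by
  have hpp : p.Prime := Fact.out
  have hp2 : p ≠ 2 := by rintro rfl; omega
  have hchar : ringChar (ZMod p) ≠ 2 := by rwa [ZMod.ringChar_zmod_n]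
  obtain ⟨n, hn⟩ := FiniteField.exists_nonsquare (F := ZMod p) hchar
  have hn0 : n ≠ 0 := fun h => hn (h ▸ IsSquare.zero)
  -- a natural number `u ≡ 3 mod 4` whose class mod `p` is `n`
  have hcop : Nat.Coprime 4 p := by
    have : Nat.Coprime 2 p := (Nat.coprime_primes Nat.prime_two hpp).mpr (Ne.symm hp2)
    exact Nat.Coprime.pow_left 2 this
  obtain ⟨u, hu4, hup⟩ := Nat.chineseRemainder hcop 3 n.val
  have hu4' : u % 4 = 3 := hu4
  have hupz : (u : ZMod p) = n := by
    have := (ZMod.natCast_eq_natCast_iff u n.val p).mpr hup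
    rw [this, ZMod.natCast_zmod_val]
  have hucop : Nat.Coprime u (4 * p) := by
    apply Nat.Coprime.mul_right
    · have : Nat.Coprime u 2 := by
        rw [Nat.coprime_two_right, Nat.odd_iff]; omega
      exact Nat.Coprime.pow_right 2 this
    · rw [Nat.coprime_comm, Nat.Prime.coprime_iff_not_dvd hpp]
      intro hdvd
      apply hn0
      rw [← hupz]
      exact (ZMod.natCast_eq_zero_iff u p).mpr hdvd
  obtain ⟨r, hrp, hrprime, hrmod⟩ :=
    Nat.forall_exists_prime_gt_and_modEq p (q := 4 * p) (a := u)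
      (Nat.mul_ne_zero (by norm_num) hpp.ne_zero) hucop
  have : Fact r.Prime := ⟨hrprime⟩
  have hr4 : r % 4 = 3 := by
    have h1 : r ≡ u [MOD 4] := hrmod.of_mul_right p
    have : r % 4 = u % 4 := h1
    omega
  have hrpz : (r : ZMod p) = n := by
    have h1 : r ≡ u [MOD p] := hrmod.of_mul_left 4
    rw [← hupz]
    exact (ZMod.natCast_eq_natCast_iff r u p).mpr h1
  have hr2 : r ≠ 2 := by rintro rfl; omega
  have hnotsq_p : ¬ IsSquare (p : ZMod r) := by
    rw [← ZMod.exists_sq_eq_prime_iff_of_mod_four_eq_one hp hr2, hrpz]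
    exact hn
  have hnotsq_neg : ¬ IsSquare (-1 : ZMod r) := by
    rw [ZMod.exists_sq_eq_neg_one_iff]
    omega
  have hsq : IsSquare ((-1 : ZMod r) * (p : ZMod r)) :=
    th_isSquare_mul_of_not_isSquare hr2 hnotsq_neg hnotsq_p
  obtain ⟨b, hb⟩ := hsq
  refine ⟨r, hrprime, hr4, b.val, ?_⟩
  rw [← ZMod.natCast_eq_zero_iff]
  push_cast
  rw [ZMod.natCast_zmod_val, pow_two, ← hb]
  ring

/-- Lattice parameters exist for every odd prime. -/
theorem th_exists_data (p : ℕ) [Fact p.Prime] (hp2 : p ≠ 2) : Nonempty (ThetaParams p) := by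
  have hpp : p.Prime := Fact.out
  have hodd : p % 2 = 1 := hpp.eq_two_or_odd.resolve_left hp2
  have hcases : p % 4 = 3 ∨ p % 8 = 5 ∨ p % 8 = 1 := by omega
  rcases hcases with h | h | h
  · -- r = p, a = 0, s = 1
    exact ⟨{ r := p, a := 0, k := ((p + 1) / 4 : ℕ), s := 1
             r_pos := by exact_mod_cast hpp.pos
             four_k := by
               have : 4 * ((p + 1) / 4) = 1 + p := by omega
               exact_mod_cast this
             r_mul_s := by simp }⟩
  · -- r = (p+1)/2, a = 1, s = 2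
    exact ⟨{ r := ((p + 1) / 2 : ℕ), a := 1, k := ((p + 3) / 8 : ℕ), s := 2
             r_pos := by
               have : 0 < (p + 1) / 2 := by omega
               exact_mod_cast this
             four_k := by
               have : 4 * ((p + 3) / 8) = 1 + (p + 1) / 2 := by omega
               exact_mod_cast this
             r_mul_s := by
               have : (p + 1) / 2 * 2 = 1 ^ 2 + p := by omega
               exact_mod_cast this }⟩
  · -- Dirichlet + reciprocity
    have h4 : p % 4 = 1 := by omega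
    obtain ⟨r, hrprime, hr4, a, s, hs⟩ := th_exists_aux_prime p h4
    exact ⟨{ r := r, a := a, k := ((r + 1) / 4 : ℕ), s := s
             r_pos := by exact_mod_cast hrprime.pos
             four_k := by
               have : 4 * ((r + 1) / 4) = 1 + r := by omega
               exact_mod_cast this
             r_mul_s := by exact_mod_cast hs.symm }⟩

end Fermat.Agent.S16
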