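import Mathlib
import Fermat.Agent.S16.Theta.Defs
import Fermat.Agent.S16.Theta.Params

/-!
# S16 / Theta (Θ0): existence of `ThetaData p` for every odd prime `p`

From parameters `r a k s` (`ThetaParams p`, file `Params.lean`) we build the Gram matrix `A`,
the rescaled dual `B = p A⁻¹` and the rational `LDL` decomposition
`A = Uᵀ diag(2, r/2, 2p/r, p/2) U`.
-/

set_option autoImplicit false

namespace Fermat.Agent.S16

open Matrix

variable {p : ℕ}

namespace ThetaParams

/-- The Gram matrix `A` (even, symmetric, `det = p²`). -/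
def matA (P : ThetaParams p) : Matrix (Fin 4) (Fin 4) ℤ :=
  !![2, 1, 0, P.a;
     1, 2 * P.k, -P.a, 0;
     0, -P.a, 2 * P.s, P.s;
     P.a, 0, P.s, 2 * P.k * P.s]

/-- The matrix `B = p A⁻¹`. -/
def matB (P : ThetaParams p) : Matrix (Fin 4) (Fin 4) ℤ :=
  !![2 * P.k * P.s, -P.s, 0, -P.a;
     -P.s, 2 * P.s, P.a, 0;
     0, P.a, 2 * P.k, -1;
     -P.a, 0, -1, 2]

/-- The unipotent upper triangular matrix of the `LDL` decomposition. -/
def matU (P : ThetaParams p) : Matrix (Fin 4) (Fin 4) ℚ :=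
  !![1, 1 / 2, 0, (P.a : ℚ) / 2;
     0, 1, -2 * (P.a : ℚ) / (P.r : ℚ), -(P.a : ℚ) / (P.r : ℚ);
     0, 0, 1, 1 / 2;
     0, 0, 0, 1]

/-- The diagonal of the `LDL` decomposition. -/
def vecδ (P : ThetaParams p) : Fin 4 → ℚ :=
  ![2, (P.r : ℚ) / 2, 2 * (p : ℚ) / (P.r : ℚ), (p : ℚ) / 2]

end ThetaParams

theorem th_matA_mulVec (P : ThetaParams p) (x : Fin 4 → ℤ) : P.matA *ᵥ x = P.mulA x := by
  funext i
  fin_cases i <;>
    (simp [ThetaParams.matA, ThetaParams.mulA, Matrix.mulVec, dotProduct, Fin.sum_univ_four]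
     try ring1)

theorem th_matB_mulVec (P : ThetaParams p) (x : Fin 4 → ℤ) : P.matB *ᵥ x = P.mulB x := by
  funext i
  fin_cases i <;>
    (simp [ThetaParams.matB, ThetaParams.mulB, Matrix.mulVec, dotProduct, Fin.sum_univ_four]
     try ring1)

/-- `xᵀ A x = 2 Q(x)`. -/
theorem th_qfZ_matA (P : ThetaParams p) (x : Fin 4 → ℤ) : qfZ P.matA x = 2 * P.Q x := by
  rw [qfZ, th_matA_mulVec, th_two_Q, th_dot_eq_sum]
  rfl

/-- `xᵀ B x = 2 Q(sig x)`. -/
theorem th_qfZ_matB (P : ThetaParams p) (x : Fin 4 → ℤ) :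
    qfZ P.matB x = 2 * P.Q (th_sig x) := by
  rw [qfZ, th_matB_mulVec, th_two_Q_sig, th_dot_eq_sum]
  rfl

theorem th_matA_mul_matB (P : ThetaParams p) :
    P.matA * P.matB = (p : ℤ) • (1 : Matrix (Fin 4) (Fin 4) ℤ) := by
  have h1 := P.four_k
  have h2 := P.r_mul_s
  ext i j
  fin_cases i <;> fin_cases j <;>
    simp [ThetaParams.matA, ThetaParams.matB, Matrix.mul_apply, Fin.sum_univ_four] <;>
    first
      | ring1
      | linear_combination P.s * h1 + h2

theorem th_matA_isSymm (P : ThetaParams p) : P.matA.IsSymm := by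
  ext i j
  fin_cases i <;> fin_cases j <;> simp [ThetaParams.matA]

theorem th_matB_isSymm (P : ThetaParams p) : P.matB.IsSymm := by
  ext i j
  fin_cases i <;> fin_cases j <;> simp [ThetaParams.matB]

theorem th_matA_even (P : ThetaParams p) (i : Fin 4) : Even (P.matA i i) := by
  fin_cases i <;> simp [ThetaParams.matA, mul_assoc]

theorem th_matB_even (P : ThetaParams p) (i : Fin 4) : Even (P.matB i i) := by
  fin_cases i <;> simp [ThetaParams.matB, mul_assoc]

theorem th_vecδ_pos (P : ThetaParams p) (hp : 0 < p) (i : Fin 4) : 0 < P.vecδ i := by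
  have hr : (0 : ℚ) < P.r := by exact_mod_cast P.r_pos
  have hp' : (0 : ℚ) < p := by exact_mod_cast hp
  fin_cases i
  · simp [ThetaParams.vecδ]
  · simpa [ThetaParams.vecδ] using hr
  · have : (0 : ℚ) < 2 * p / P.r := by positivity
    simpa [ThetaParams.vecδ] using this
  · simpa [ThetaParams.vecδ] using hp'

theorem th_vecδ_prod (P : ThetaParams p) : ∏ i, P.vecδ i = (p : ℚ) ^ 2 := by
  have hr : (P.r : ℚ) ≠ 0 := by exact_mod_cast P.r_pos.ne'
  simp [Fin.prod_univ_four, ThetaParams.vecδ]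
  field_simp

theorem th_matU_diag (P : ThetaParams p) (i : Fin 4) : P.matU i i = 1 := by
  fin_cases i <;> simp [ThetaParams.matU]

theorem th_matU_lower (P : ThetaParams p) (i j : Fin 4) (h : j < i) : P.matU i j = 0 := by
  fin_cases i <;> fin_cases j <;> first | (exfalso; revert h; decide) | simp [ThetaParams.matU]

theorem th_ldl (P : ThetaParams p) :
    P.matA.map (Int.cast : ℤ → ℚ) = P.matUᵀ * Matrix.diagonal P.vecδ * P.matU := by
  have hr : (P.r : ℚ) ≠ 0 := by exact_mod_cast P.r_pos.ne'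
  have h1 : (4 : ℚ) * P.k = 1 + P.r := by exact_mod_cast P.four_k
  have h2 : (P.r : ℚ) * P.s = (P.a : ℚ) ^ 2 + p := by exact_mod_cast P.r_mul_s
  have hk : (P.k : ℚ) = (1 + P.r) / 4 := by linarith
  have hs : (P.s : ℚ) = ((P.a : ℚ) ^ 2 + p) / P.r := by
    field_simp
    linarith
  ext i j
  fin_cases i <;> fin_cases j <;>
    simp [ThetaParams.matA, ThetaParams.matU, ThetaParams.vecδ, Matrix.mul_apply,
      Fin.sum_univ_four, Matrix.diagonal]
  all_goals
    try simp only [hk, hs]
    field_simp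
    try ring1

/-- The `ThetaData` attached to lattice parameters. -/
noncomputable def ThetaParams.toThetaData (P : ThetaParams p) (hp : 0 < p) : ThetaData p where
  A := P.matA
  B := P.matB
  A_symm := th_matA_isSymm P
  B_symm := th_matB_isSymm P
  mul_eq := th_matA_mul_matB P
  A_even := th_matA_even P
  B_even := th_matB_even P
  δ := P.vecδ
  δ_pos := th_vecδ_pos P hp
  δ_prod := th_vecδ_prod P
  U := P.matU
  U_diag := th_matU_diag P
  U_lower := th_matU_lower P
  ldl := th_ldl P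

@[simp] theorem th_toThetaData_A (P : ThetaParams p) (hp : 0 < p) :
    (P.toThetaData hp).A = P.matA := rfl

@[simp] theorem th_toThetaData_B (P : ThetaParams p) (hp : 0 < p) :
    (P.toThetaData hp).B = P.matB := rfl

/-- **Θ0**: for every odd prime `p` there is an even positive definite quaternary lattice of
level `p` and determinant `p²`. -/
theorem exists_thetaData (hp : p.Prime) (hp2 : p ≠ 2) : Nonempty (ThetaData p) := by
  have : Fact p.Prime := ⟨hp⟩
  obtain ⟨P⟩ := th_exists_data p hp2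
  exact ⟨P.toThetaData hp.pos⟩

/-- Variant of `exists_thetaData` remembering the parameters: `xᵀ A x = 2 Q(x)` and
`xᵀ B x = 2 Q(sig x)` for the explicit form `Q` of `Quat.lean` (so that the positivity and
representation-number lemmas `th_Q_int_pos`, `th_finite_Q_le`, `th_rep_zero`, `th_rep_even`, ...
apply to `qfZ D.A` and `qfZ D.B`). -/
theorem exists_thetaData_params (hp : p.Prime) (hp2 : p ≠ 2) :
    ∃ (D : ThetaData p) (P : ThetaParams p),
      (∀ x : Fin 4 → ℤ, qfZ D.A x = 2 * P.Q x) ∧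
      (∀ x : Fin 4 → ℤ, qfZ D.B x = 2 * P.Q (th_sig x)) := by
  have : Fact p.Prime := ⟨hp⟩
  obtain ⟨P⟩ := th_exists_data p hp2
  exact ⟨P.toThetaData hp.pos, P, th_qfZ_matA P, th_qfZ_matB P⟩

end Fermat.Agent.S16
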