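import Mathlib

/-!
# Poisson summation for Gaussians in several variables (generic triangular induction)

`gp_Pair n Q Qd D` : `Q` is a positive definite quadratic form on `ℝⁿ` presented in triangular
(LDL) form, `Qd` its dual form and `D` its determinant. `gp_main` is the Poisson summation formula
with shift `v` and twist `w`.
-/

set_option autoImplicit false

namespace Fermat.Agent.S16

open Complex Real

/-! ### One-dimensional estimates -/

theorem gp_norm_cexp (σ : ℂ) (R r : ℝ) :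
    ‖cexp (π * I * σ * (R : ℂ) + 2 * π * I * (r : ℂ))‖ = Real.exp (-(π * σ.im) * R) := by
  rw [Complex.norm_exp]
  congr 1
  simp only [add_re, mul_re, mul_im, ofReal_re, ofReal_im, I_re, I_im, re_ofNat, im_ofNat]
  ring

theorem gp_summable_one {κ : ℝ} (hκ : 0 < κ) :
    Summable (fun a : ℤ => Real.exp (-κ * (a : ℝ) ^ 2)) := by
  have hτ : 0 < (I * ((κ / π : ℝ) : ℂ)).im := by
    simp only [mul_im, I_re, I_im, ofReal_re, ofReal_im]
    have : 0 < κ / π := div_pos hκ pi_pos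
    linarith
  have h := ((summable_jacobiTheta₂_term_iff 0 (I * ((κ / π : ℝ) : ℂ))).mpr hτ).norm
  refine h.congr fun a => ?_
  rw [norm_jacobiTheta₂_term]
  congr 1
  simp only [mul_im, I_re, I_im, ofReal_re, ofReal_im, zero_im]
  field_simp
  ring

theorem gp_UB_one {κ : ℝ} (hκ : 0 < κ) :
    ∃ C : ℝ, ∀ s : ℝ, Summable (fun a : ℤ => Real.exp (-κ * ((a : ℝ) + s) ^ 2)) ∧
      ∑' a : ℤ, Real.exp (-κ * ((a : ℝ) + s) ^ 2) ≤ C := by
  have h0 := gp_summable_one hκ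
  have h1 : Summable (fun a : ℤ => Real.exp (-κ * ((a : ℝ) + 1) ^ 2)) := by
    have := (Equiv.addRight (1 : ℤ)).summable_iff.mpr h0
    refine this.congr fun a => ?_
    simp [Function.comp]
  refine ⟨∑' a : ℤ, (Real.exp (-κ * (a : ℝ) ^ 2) + Real.exp (-κ * ((a : ℝ) + 1) ^ 2)), ?_⟩
  -- the case `0 ≤ t < 1`
  have key : ∀ t : ℝ, 0 ≤ t → t < 1 → ∀ a : ℤ, Real.exp (-κ * ((a : ℝ) + t) ^ 2) ≤
      Real.exp (-κ * (a : ℝ) ^ 2) + Real.exp (-κ * ((a : ℝ) + 1) ^ 2) := by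
    intro t ht0 ht1 a
    rcases le_or_gt 0 a with ha | ha
    · have ha' : (0 : ℝ) ≤ a := by exact_mod_cast ha
      have : Real.exp (-κ * ((a : ℝ) + t) ^ 2) ≤ Real.exp (-κ * (a : ℝ) ^ 2) := by
        apply Real.exp_le_exp.mpr
        have : (a : ℝ) ^ 2 ≤ ((a : ℝ) + t) ^ 2 := by nlinarith
        nlinarith
      have h2 := Real.exp_pos (-κ * ((a : ℝ) + 1) ^ 2)
      linarith
    · have ha' : (a : ℝ) + 1 ≤ 0 := by
        have : a + 1 ≤ 0 := by omega
        exact_mod_cast this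
      have : Real.exp (-κ * ((a : ℝ) + t) ^ 2) ≤ Real.exp (-κ * ((a : ℝ) + 1) ^ 2) := by
        apply Real.exp_le_exp.mpr
        have : ((a : ℝ) + 1) ^ 2 ≤ ((a : ℝ) + t) ^ 2 := by nlinarith
        nlinarith
      have h2 := Real.exp_pos (-κ * (a : ℝ) ^ 2)
      linarith
  have hsum : ∀ t : ℝ, 0 ≤ t → t < 1 →
      Summable (fun a : ℤ => Real.exp (-κ * ((a : ℝ) + t) ^ 2)) ∧
      ∑' a : ℤ, Real.exp (-κ * ((a : ℝ) + t) ^ 2) ≤
        ∑' a : ℤ, (Real.exp (-κ * (a : ℝ) ^ 2) + Real.exp (-κ * ((a : ℝ) + 1) ^ 2)) := by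
    intro t ht0 ht1
    have hs : Summable (fun a : ℤ => Real.exp (-κ * ((a : ℝ) + t) ^ 2)) :=
      Summable.of_nonneg_of_le (fun a => (Real.exp_pos _).le) (key t ht0 ht1) (h0.add h1)
    exact ⟨hs, hs.tsum_le_tsum (key t ht0 ht1) (h0.add h1)⟩
  intro s
  obtain ⟨hs, hle⟩ := hsum (Int.fract s) (Int.fract_nonneg s) (Int.fract_lt_one s)
  have hcongr : ∀ a : ℤ, Real.exp (-κ * ((a : ℝ) + s) ^ 2) =
      (fun b : ℤ => Real.exp (-κ * ((b : ℝ) + Int.fract s) ^ 2)) (Equiv.addRight ⌊s⌋ a) := by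
    intro a
    simp only [Equiv.coe_addRight, Int.cast_add]
    congr 2
    rw [add_assoc, Int.floor_add_fract]
  have hs' : Summable (fun a : ℤ => Real.exp (-κ * ((a : ℝ) + s) ^ 2)) := by
    have := (Equiv.addRight ⌊s⌋).summable_iff.mpr hs
    exact this.congr fun a => (hcongr a).symm
  refine ⟨hs', ?_⟩
  have : ∑' a : ℤ, Real.exp (-κ * ((a : ℝ) + s) ^ 2) =
      ∑' b : ℤ, Real.exp (-κ * ((b : ℝ) + Int.fract s) ^ 2) := by
    rw [← (Equiv.addRight ⌊s⌋).tsum_eq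
      (fun b : ℤ => Real.exp (-κ * ((b : ℝ) + Int.fract s) ^ 2))]
    exact tsum_congr hcongr
  rw [this]
  exact hle

/-! ### Triangular pairs and uniform summability -/

/-- Triangular presentation of a positive definite quadratic form `Q` on `ℝⁿ`, its dual `Qd`
and its determinant `D`. -/
inductive gp_Pair : (n : ℕ) → ((Fin n → ℝ) → ℝ) → ((Fin n → ℝ) → ℝ) → ℝ → Prop
  | nil : gp_Pair 0 (fun _ => 0) (fun _ => 0) 1
  | cons {n : ℕ} {Q Qd : (Fin n → ℝ) → ℝ} {D : ℝ} (δ : ℝ) (hδ : 0 < δ) (m : Fin n → ℝ)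
      (h : gp_Pair n Q Qd D) :
      gp_Pair (n + 1) (fun x => δ * (x 0 + ∑ i, m i * x i.succ) ^ 2 + Q (fun i => x i.succ))
        (fun y => (y 0) ^ 2 / δ + Qd (fun i => y i.succ - y 0 * m i)) (δ * D)

/-- Uniform (in the shift) summability of the Gaussian attached to `R`. -/
def gp_UB {n : ℕ} (R : (Fin n → ℝ) → ℝ) : Prop :=
  ∀ c : ℝ, 0 < c → ∃ C : ℝ, ∀ s : Fin n → ℝ,
    Summable (fun x : Fin n → ℤ => Real.exp (-c * R (fun i => (x i : ℝ) + s i))) ∧
    ∑' x : Fin n → ℤ, Real.exp (-c * R (fun i => (x i : ℝ) + s i)) ≤ C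

theorem gp_prod_bound {α β : Type*} (f : α → β → ℝ) (g : α → ℝ) (hf : ∀ a b, 0 ≤ f a b)
    (hg : ∀ a, 0 ≤ g a) (C₁ C₂ : ℝ) (h1 : ∀ a, Summable (f a) ∧ ∑' b, f a b ≤ C₁)
    (h2 : Summable g ∧ ∑' a, g a ≤ C₂) (hC₁ : 0 ≤ C₁) :
    Summable (fun p : α × β => g p.1 * f p.1 p.2) ∧
      ∑' p : α × β, g p.1 * f p.1 p.2 ≤ C₁ * C₂ := by
  have hnn : (0 : α × β → ℝ) ≤ fun p : α × β => g p.1 * f p.1 p.2 :=
    fun p => mul_nonneg (hg _) (hf _ _)
  have hin : ∀ a, Summable fun b => g a * f a b := fun a => (h1 a).1.mul_left _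
  have hin' : ∀ a, ∑' b, g a * f a b = g a * ∑' b, f a b := fun a => tsum_mul_left
  have hle : ∀ a, ∑' b, g a * f a b ≤ C₁ * g a := by
    intro a
    rw [hin', mul_comm]
    exact mul_le_mul_of_nonneg_right (h1 a).2 (hg a)
  have hout : Summable fun a => ∑' b, g a * f a b :=
    Summable.of_nonneg_of_le (fun a => tsum_nonneg fun b => mul_nonneg (hg _) (hf _ _)) hle
      (h2.1.mul_left _)
  have hS : Summable (fun p : α × β => g p.1 * f p.1 p.2) :=
    (summable_prod_of_nonneg hnn).mpr ⟨hin, hout⟩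
  refine ⟨hS, ?_⟩
  rw [hS.tsum_prod]
  calc ∑' a, ∑' b, g a * f a b ≤ ∑' a, C₁ * g a := hout.tsum_le_tsum hle (h2.1.mul_left _)
    _ = C₁ * ∑' a, g a := tsum_mul_left
    _ ≤ C₁ * C₂ := mul_le_mul_of_nonneg_left h2.2 hC₁

theorem gp_UB_const_nonneg {κ : ℝ} {C : ℝ}
    (h : ∀ s : ℝ, Summable (fun a : ℤ => Real.exp (-κ * ((a : ℝ) + s) ^ 2)) ∧
      ∑' a : ℤ, Real.exp (-κ * ((a : ℝ) + s) ^ 2) ≤ C) : 0 ≤ C :=
  le_trans (tsum_nonneg fun _ => (Real.exp_pos _).le) (h 0).2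

theorem gp_Pair.ub {n : ℕ} {Q Qd : (Fin n → ℝ) → ℝ} {D : ℝ} (h : gp_Pair n Q Qd D) :
    gp_UB Q ∧ gp_UB Qd := by
  induction h with
  | nil =>
    constructor <;>
    · intro c _
      refine ⟨1, fun s => ⟨(hasSum_fintype _).summable, ?_⟩⟩
      rw [tsum_fintype]
      simp
  | @cons n Q Qd D δ hδ m h ih =>
    obtain ⟨ihQ, ihQd⟩ := ih
    constructor
    · intro c hc
      obtain ⟨C₁, hC₁⟩ := gp_UB_one (mul_pos hc hδ)
      obtain ⟨C', hC'⟩ := ihQ c hc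
      refine ⟨C₁ * C', fun s => ?_⟩
      have key := gp_prod_bound
        (fun (x' : Fin n → ℤ) (a : ℤ) =>
          Real.exp (-(c * δ) * ((a : ℝ) + (s 0 + ∑ i, m i * ((x' i : ℝ) + s i.succ))) ^ 2))
        (fun x' : Fin n → ℤ => Real.exp (-c * Q (fun i => (x' i : ℝ) + s i.succ)))
        (fun _ _ => (Real.exp_pos _).le) (fun _ => (Real.exp_pos _).le) C₁ C'
        (fun x' => hC₁ _) (hC' fun i => s i.succ) (gp_UB_const_nonneg hC₁)
      let e' : (Fin n → ℤ) × ℤ ≃ (Fin (n + 1) → ℤ) :=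
        (Equiv.prodComm _ _).trans (Fin.consEquiv (fun _ => ℤ))
      have hpt : ∀ p : (Fin n → ℤ) × ℤ,
          Real.exp (-c * (δ * ((((e' p) 0 : ℤ) : ℝ) + s 0 +
            ∑ i, m i * ((((e' p) i.succ : ℤ) : ℝ) + s i.succ)) ^ 2 +
              Q (fun i => (((e' p) i.succ : ℤ) : ℝ) + s i.succ))) =
          Real.exp (-c * Q (fun i => (p.1 i : ℝ) + s i.succ)) *
            Real.exp (-(c * δ) * ((p.2 : ℝ) + (s 0 + ∑ i, m i * ((p.1 i : ℝ) + s i.succ))) ^ 2) := by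
        intro p
        rw [← Real.exp_add]
        congr 1
        simp only [e', Equiv.trans_apply, Equiv.prodComm_apply, Prod.swap, Fin.consEquiv_apply,
          Fin.cons_zero, Fin.cons_succ]
        ring
      constructor
      · rw [← e'.summable_iff]
        exact key.1.congr fun p => (hpt p).symm
      · rw [← e'.tsum_eq]
        calc _ = ∑' p : (Fin n → ℤ) × ℤ, _ := tsum_congr hpt
          _ ≤ _ := key.2
    · intro c hc
      obtain ⟨C₁, hC₁⟩ := gp_UB_one (div_pos hc hδ)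
      obtain ⟨C', hC'⟩ := ihQd c hc
      refine ⟨C' * C₁, fun s => ?_⟩
      have hC'0 : 0 ≤ C' :=
        le_trans (tsum_nonneg fun _ => (Real.exp_pos _).le) (hC' 0).2
      have key := gp_prod_bound
        (fun (b : ℤ) (y' : Fin n → ℤ) =>
          Real.exp (-c * Qd (fun i => (y' i : ℝ) + (s i.succ - ((b : ℝ) + s 0) * m i))))
        (fun b : ℤ => Real.exp (-(c / δ) * ((b : ℝ) + s 0) ^ 2))
        (fun _ _ => (Real.exp_pos _).le) (fun _ => (Real.exp_pos _).le) C' C₁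
        (fun b => hC' _) (hC₁ _) hC'0
      let e : ℤ × (Fin n → ℤ) ≃ (Fin (n + 1) → ℤ) := Fin.consEquiv (fun _ => ℤ)
      have hpt : ∀ p : ℤ × (Fin n → ℤ),
          Real.exp (-c * (((((e p) 0 : ℤ) : ℝ) + s 0) ^ 2 / δ +
              Qd (fun i => (((e p) i.succ : ℤ) : ℝ) + s i.succ -
                ((((e p) 0 : ℤ) : ℝ) + s 0) * m i))) =
          Real.exp (-(c / δ) * ((p.1 : ℝ) + s 0) ^ 2) *
            Real.exp (-c * Qd (fun i => (p.2 i : ℝ) + (s i.succ - ((p.1 : ℝ) + s 0) * m i))) := by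
        intro p
        rw [← Real.exp_add]
        congr 1
        simp only [e, Fin.consEquiv_apply, Fin.cons_zero, Fin.cons_succ]
        have : (fun i => (p.2 i : ℝ) + s i.succ - ((p.1 : ℝ) + s 0) * m i) =
            fun i => (p.2 i : ℝ) + (s i.succ - ((p.1 : ℝ) + s 0) * m i) := by
          funext i; ring
        rw [this]
        ring
      constructor
      · rw [← e.summable_iff]
        exact key.1.congr fun p => (hpt p).symm
      · rw [← e.tsum_eq]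
        calc _ = ∑' p : ℤ × (Fin n → ℤ), _ := tsum_congr hpt
          _ ≤ _ := key.2

/-! ### The one-dimensional Poisson summation formula with shift and twist -/

theorem gp_im_neg_inv {τ : ℂ} (hτ : 0 < τ.im) : 0 < (-1 / τ).im := by
  have h0 : τ ≠ 0 := fun h => by simp [h] at hτ
  rw [neg_div, one_div, neg_im, inv_im, neg_div, neg_neg]
  exact div_pos hτ (normSq_pos.mpr h0)

theorem gp_cpow_half {δ : ℝ} (hδ : 0 < δ) {τ : ℂ} (hτ : 0 < τ.im) :
    (-I * (τ * (δ : ℂ))) ^ (1 / 2 : ℂ) = (-I * τ) ^ (1 / 2 : ℂ) * ((Real.sqrt δ : ℝ) : ℂ) := by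
  have h0 : τ ≠ 0 := fun h => by simp [h] at hτ
  have hx : -I * τ ≠ 0 := mul_ne_zero (neg_ne_zero.mpr I_ne_zero) h0
  have hδ0 : (δ : ℂ) ≠ 0 := ofReal_ne_zero.mpr hδ.ne'
  have e1 : -I * (τ * (δ : ℂ)) = (δ : ℂ) * (-I * τ) := by ring
  rw [e1, cpow_def_of_ne_zero (mul_ne_zero hδ0 hx), cpow_def_of_ne_zero hx,
    log_ofReal_mul hδ hx, add_mul, Complex.exp_add, mul_comm]
  congr 1
  rw [Real.sqrt_eq_rpow, Real.rpow_def_of_pos hδ, ofReal_exp]
  congr 1
  push_cast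
  ring

/-- `x`-side summand. -/
noncomputable def gp_F {n : ℕ} (Q : (Fin n → ℝ) → ℝ) (τ : ℂ) (v w : Fin n → ℝ)
    (x : Fin n → ℤ) : ℂ :=
  cexp (π * I * τ * ((Q (fun i => (x i : ℝ) + v i) : ℝ) : ℂ) +
    2 * π * I * ((∑ i, w i * (x i : ℝ) : ℝ) : ℂ))

/-- dual side summand. -/
noncomputable def gp_G {n : ℕ} (Qd : (Fin n → ℝ) → ℝ) (τ : ℂ) (v w : Fin n → ℝ)
    (y : Fin n → ℤ) : ℂ :=
  cexp (π * I * (-1 / τ) * ((Qd (fun i => (y i : ℝ) - w i) : ℝ) : ℂ) +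
    2 * π * I * ((∑ i, ((y i : ℝ) - w i) * v i : ℝ) : ℂ))

theorem gp_poisson_one {δ : ℝ} (hδ : 0 < δ) {τ : ℂ} (hτ : 0 < τ.im) (s w₀ : ℝ) :
    ∑' a : ℤ, cexp (π * I * τ * ((δ * ((a : ℝ) + s) ^ 2 : ℝ) : ℂ) +
        2 * π * I * ((w₀ * (a : ℝ) : ℝ) : ℂ)) =
      (1 / (-I * τ) ^ (1 / 2 : ℂ)) * (1 / ((Real.sqrt δ : ℝ) : ℂ)) *
        ∑' b : ℤ, cexp (π * I * (-1 / τ) * (((((b : ℝ) - w₀) ^ 2 / δ : ℝ)) : ℂ) +
          2 * π * I * ((((b : ℝ) - w₀) * s : ℝ) : ℂ)) := by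
  have h0 : τ ≠ 0 := fun h => by simp [h] at hτ
  have hδ0 : (δ : ℂ) ≠ 0 := ofReal_ne_zero.mpr hδ.ne'
  have hL : ∀ a : ℤ, cexp (π * I * τ * ((δ * ((a : ℝ) + s) ^ 2 : ℝ) : ℂ) +
        2 * π * I * ((w₀ * (a : ℝ) : ℝ) : ℂ)) =
      cexp (π * I * τ * δ * s ^ 2) * jacobiTheta₂_term a (τ * δ * s + w₀) (τ * δ) := by
    intro a
    rw [jacobiTheta₂_term, ← Complex.exp_add]
    congr 1
    push_cast
    ring
  have hR : ∀ b : ℤ, cexp (π * I * (-1 / τ) * (((((b : ℝ) - w₀) ^ 2 / δ : ℝ)) : ℂ) +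
          2 * π * I * ((((b : ℝ) - w₀) * s : ℝ) : ℂ)) =
      cexp (-π * I * w₀ ^ 2 / (τ * δ) - 2 * π * I * w₀ * s) *
        jacobiTheta₂_term b ((τ * δ * s + w₀) / (τ * δ)) (-1 / (τ * δ)) := by
    intro b
    rw [jacobiTheta₂_term, ← Complex.exp_add]
    congr 1
    push_cast
    field_simp
    ring
  rw [tsum_congr hL, tsum_congr hR, tsum_mul_left, tsum_mul_left, ← jacobiTheta₂, ← jacobiTheta₂,
    jacobiTheta₂_functional_equation (τ * δ * s + w₀) (τ * δ), gp_cpow_half hδ hτ]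
  have hE : cexp (π * I * τ * δ * s ^ 2) * cexp (-π * I * (τ * δ * s + w₀) ^ 2 / (τ * δ)) =
      cexp (-π * I * w₀ ^ 2 / (τ * δ) - 2 * π * I * w₀ * s) := by
    rw [← Complex.exp_add]
    congr 1
    field_simp
    ring
  rw [← hE]
  rw [one_div, one_div, one_div, mul_inv]
  ring

/-! ### Summability of the summands -/

theorem gp_norm_F {n : ℕ} (Q : (Fin n → ℝ) → ℝ) (τ : ℂ) (v w : Fin n → ℝ) (x : Fin n → ℤ) :
    ‖gp_F Q τ v w x‖ = Real.exp (-(π * τ.im) * Q (fun i => (x i : ℝ) + v i)) :=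
  gp_norm_cexp τ _ _

theorem gp_norm_G {n : ℕ} (Qd : (Fin n → ℝ) → ℝ) (τ : ℂ) (v w : Fin n → ℝ) (y : Fin n → ℤ) :
    ‖gp_G Qd τ v w y‖ = Real.exp (-(π * (-1 / τ).im) * Qd (fun i => (y i : ℝ) - w i)) :=
  gp_norm_cexp (-1 / τ) _ _

theorem gp_summable_norm_F {n : ℕ} {Q : (Fin n → ℝ) → ℝ} (hub : gp_UB Q) {τ : ℂ}
    (hτ : 0 < τ.im) (v w : Fin n → ℝ) : Summable (fun x => ‖gp_F Q τ v w x‖) := by
  obtain ⟨C, hC⟩ := hub (π * τ.im) (mul_pos pi_pos hτ)
  exact (hC v).1.congr fun x => (gp_norm_F Q τ v w x).symm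

theorem gp_summable_F {n : ℕ} {Q : (Fin n → ℝ) → ℝ} (hub : gp_UB Q) {τ : ℂ}
    (hτ : 0 < τ.im) (v w : Fin n → ℝ) : Summable (gp_F Q τ v w) :=
  (gp_summable_norm_F hub hτ v w).of_norm

theorem gp_summable_norm_G {n : ℕ} {Qd : (Fin n → ℝ) → ℝ} (hub : gp_UB Qd) {τ : ℂ}
    (hτ : 0 < τ.im) (v w : Fin n → ℝ) : Summable (fun y => ‖gp_G Qd τ v w y‖) := by
  obtain ⟨C, hC⟩ := hub (π * (-1 / τ).im) (mul_pos pi_pos (gp_im_neg_inv hτ))
  refine (hC (fun i => -w i)).1.congr fun y => ?_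
  rw [gp_norm_G]
  simp only [sub_eq_add_neg]

theorem gp_summable_G {n : ℕ} {Qd : (Fin n → ℝ) → ℝ} (hub : gp_UB Qd) {τ : ℂ}
    (hτ : 0 < τ.im) (v w : Fin n → ℝ) : Summable (gp_G Qd τ v w) :=
  (gp_summable_norm_G hub hτ v w).of_norm

/-! ### The main theorem -/

theorem gp_main {n : ℕ} {Q Qd : (Fin n → ℝ) → ℝ} {D : ℝ} (h : gp_Pair n Q Qd D) {τ : ℂ}
    (hτ : 0 < τ.im) : ∀ v w : Fin n → ℝ,
    ∑' x, gp_F Q τ v w x =
      (1 / (-I * τ) ^ (1 / 2 : ℂ)) ^ n * (1 / ((Real.sqrt D : ℝ) : ℂ)) * ∑' y, gp_G Qd τ v w y := by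
  induction h with
  | nil =>
    intro v w
    rw [tsum_fintype, tsum_fintype]
    simp [gp_F, gp_G]
  | @cons n Q Qd D δ hδ m h ih =>
    intro v w
    have hubP := (gp_Pair.cons δ hδ m h).ub
    have hub := h.ub
    set Qp : (Fin (n + 1) → ℝ) → ℝ :=
      fun x => δ * (x 0 + ∑ i, m i * x i.succ) ^ 2 + Q (fun i => x i.succ) with hQp
    set Qdp : (Fin (n + 1) → ℝ) → ℝ :=
      fun y => (y 0) ^ 2 / δ + Qd (fun i => y i.succ - y 0 * m i) with hQdp
    set v' : Fin n → ℝ := fun i => v i.succ with hv'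
    set w' : Fin n → ℝ := fun i => w i.succ with hw'
    -- the shift in the inner variable
    set σ : (Fin n → ℤ) → ℝ := fun x' => v 0 + ∑ i, m i * ((x' i : ℝ) + v' i) with hσ
    -- Step 1: split off the first variable
    let e' : (Fin n → ℤ) × ℤ ≃ (Fin (n + 1) → ℤ) :=
      (Equiv.prodComm _ _).trans (Fin.consEquiv (fun _ => ℤ))
    have hsF : Summable (fun p : (Fin n → ℤ) × ℤ => gp_F Qp τ v w (e' p)) :=
      e'.summable_iff.mpr (gp_summable_F hubP.1 hτ v w)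
    have hpt1 : ∀ (x' : Fin n → ℤ) (a : ℤ), gp_F Qp τ v w (e' (x', a)) =
        gp_F Q τ v' w' x' * cexp (π * I * τ * ((δ * ((a : ℝ) + σ x') ^ 2 : ℝ) : ℂ) +
          2 * π * I * ((w 0 * (a : ℝ) : ℝ) : ℂ)) := by
      intro x' a
      simp only [gp_F, ← Complex.exp_add]
      congr 1
      have e1 : Qp (fun i => ((e' (x', a) i : ℤ) : ℝ) + v i) =
          δ * ((a : ℝ) + σ x') ^ 2 + Q (fun i => (x' i : ℝ) + v' i) := by
        simp only [hQp, hσ, hv', e', Equiv.trans_apply, Equiv.prodComm_apply, Prod.swap,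
          Fin.consEquiv_apply, Fin.cons_zero, Fin.cons_succ]
        ring
      have e2 : ∑ i, w i * ((e' (x', a) i : ℤ) : ℝ) = w 0 * (a : ℝ) + ∑ i, w' i * (x' i : ℝ) := by
        rw [Fin.sum_univ_succ]
        simp only [hw', e', Equiv.trans_apply, Equiv.prodComm_apply, Prod.swap,
          Fin.consEquiv_apply, Fin.cons_zero, Fin.cons_succ]
      rw [e1, e2]
      push_cast
      ring
    rw [← e'.tsum_eq (gp_F Qp τ v w), hsF.tsum_prod]
    -- Step 2-4: the inner sum by the one-dimensional formula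
    set c₁ : ℂ := (1 / (-I * τ) ^ (1 / 2 : ℂ)) * (1 / ((Real.sqrt δ : ℝ) : ℂ)) with hc₁
    have hinner : ∀ x' : Fin n → ℤ, ∑' a : ℤ, gp_F Qp τ v w (e' (x', a)) =
        c₁ * ∑' b : ℤ, gp_F Q τ v' w' x' *
          cexp (π * I * (-1 / τ) * (((((b : ℝ) - w 0) ^ 2 / δ : ℝ)) : ℂ) +
            2 * π * I * ((((b : ℝ) - w 0) * σ x' : ℝ) : ℂ)) := by
      intro x'
      rw [tsum_congr (hpt1 x'), tsum_mul_left, gp_poisson_one hδ hτ, tsum_mul_left]
      ring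
    rw [tsum_congr hinner, tsum_mul_left]
    -- Step 5: exchange the two summations
    set k : (Fin n → ℤ) → ℤ → ℂ := fun x' b => gp_F Q τ v' w' x' *
          cexp (π * I * (-1 / τ) * (((((b : ℝ) - w 0) ^ 2 / δ : ℝ)) : ℂ) +
            2 * π * I * ((((b : ℝ) - w 0) * σ x' : ℝ) : ℂ)) with hk
    have hksum : Summable (Function.uncurry k) := by
      obtain ⟨C₁, hC₁⟩ := gp_UB_one (div_pos (mul_pos pi_pos (gp_im_neg_inv hτ)) hδ)
      have h1 : Summable (fun b : ℤ =>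
          Real.exp (-(π * (-1 / τ).im / δ) * ((b : ℝ) + (-w 0)) ^ 2)) := (hC₁ (-w 0)).1
      have h2 := gp_summable_norm_F hub.1 hτ v' w'
      refine Summable.of_norm ?_
      refine (Summable.mul_of_nonneg h2 h1 (fun _ => norm_nonneg _)
        (fun _ => (Real.exp_pos _).le)).congr fun p => ?_
      obtain ⟨x', b⟩ := p
      simp only [Function.uncurry, hk, norm_mul, gp_norm_cexp]
      congr 2
      field_simp
      ring
    rw [← hksum.tsum_comm]
    -- Step 6-8: apply the induction hypothesis for each `b`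
    set cn : ℂ := (1 / (-I * τ) ^ (1 / 2 : ℂ)) ^ n * (1 / ((Real.sqrt D : ℝ) : ℂ)) with hcn
    have hb : ∀ b : ℤ, ∑' x' : Fin n → ℤ, k x' b =
        cn * ∑' y' : Fin n → ℤ, gp_G Qdp τ v w (Fin.cons b y') := by
      intro b
      set w'' : Fin n → ℝ := fun i => w' i + ((b : ℝ) - w 0) * m i with hw''
      set hconst : ℂ := cexp (π * I * (-1 / τ) * (((((b : ℝ) - w 0) ^ 2 / δ : ℝ)) : ℂ) +
            2 * π * I * ((((b : ℝ) - w 0) * (v 0 + ∑ i, m i * v' i) : ℝ) : ℂ)) with hhc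
      have hpt2 : ∀ x' : Fin n → ℤ, k x' b = hconst * gp_F Q τ v' w'' x' := by
        intro x'
        simp only [hk, hhc, gp_F, ← Complex.exp_add]
        congr 1
        have er : (∑ i, w' i * (x' i : ℝ)) + ((b : ℝ) - w 0) * σ x' =
            ((b : ℝ) - w 0) * (v 0 + ∑ i, m i * v' i) + ∑ i, w'' i * (x' i : ℝ) := by
          simp only [hσ, hw'', mul_add, add_mul, Finset.sum_add_distrib, Finset.mul_sum]
          have : ∑ i, ((b : ℝ) - w 0) * m i * (x' i : ℝ) = ∑ i, ((b : ℝ) - w 0) * (m i * (x' i : ℝ)) :=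
            Finset.sum_congr rfl fun i _ => by ring
          rw [this]
          ring
        have er' := congrArg (fun r : ℝ => (r : ℂ)) er
        simp only [ofReal_add] at er'
        linear_combination (2 * π * I) * er'
      have hpt3 : ∀ y' : Fin n → ℤ, hconst * gp_G Qd τ v' w'' y' =
          gp_G Qdp τ v w (Fin.cons b y') := by
        intro y'
        simp only [hhc, gp_G, ← Complex.exp_add]
        congr 1
        have e1 : Qdp (fun i => (((Fin.cons b y' : Fin (n + 1) → ℤ) i : ℤ) : ℝ) - w i) =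
            ((b : ℝ) - w 0) ^ 2 / δ + Qd (fun i => (y' i : ℝ) - w'' i) := by
          simp only [hQdp, hw'', hw', Fin.cons_zero, Fin.cons_succ]
          congr 2
          funext i
          ring
        have e2 : ∑ i, ((((Fin.cons b y' : Fin (n + 1) → ℤ) i : ℤ) : ℝ) - w i) * v i =
            ((b : ℝ) - w 0) * (v 0 + ∑ i, m i * v' i) + ∑ i, ((y' i : ℝ) - w'' i) * v' i := by
          rw [Fin.sum_univ_succ]
          simp only [hw'', hw', hv', Fin.cons_zero, Fin.cons_succ, mul_add, sub_mul, add_mul,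
            Finset.sum_add_distrib, Finset.sum_sub_distrib, Finset.mul_sum]
          have t1 : ∑ i, (b : ℝ) * m i * v i.succ = ∑ i, (b : ℝ) * (m i * v i.succ) :=
            Finset.sum_congr rfl fun i _ => by ring
          have t2 : ∑ i, w 0 * m i * v i.succ = ∑ i, w 0 * (m i * v i.succ) :=
            Finset.sum_congr rfl fun i _ => by ring
          rw [t1, t2]
          ring
        rw [e1, e2]
        push_cast
        ring
      rw [tsum_congr hpt2, tsum_mul_left, ih v' w'', ← mul_assoc, mul_comm hconst cn, mul_assoc,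
        ← tsum_mul_left, tsum_congr hpt3]
    rw [tsum_congr hb, tsum_mul_left]
    -- Step 9: recombine
    let e : ℤ × (Fin n → ℤ) ≃ (Fin (n + 1) → ℤ) := Fin.consEquiv (fun _ => ℤ)
    have hsG : Summable (fun p : ℤ × (Fin n → ℤ) => gp_G Qdp τ v w (e p)) :=
      e.summable_iff.mpr (gp_summable_G hubP.2 hτ v w)
    have hrec : ∑' b : ℤ, ∑' y' : Fin n → ℤ, gp_G Qdp τ v w (Fin.cons b y') =
        ∑' y, gp_G Qdp τ v w y := by
      rw [← e.tsum_eq (gp_G Qdp τ v w), hsG.tsum_prod]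
      rfl
    rw [hrec, hc₁, hcn, Real.sqrt_mul hδ.le]
    push_cast
    ring

end Fermat.Agent.S16
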