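import Fermat.Agent.S16.Theta.Defs
import Fermat.Agent.S16.Theta.GaussPoisson

/-!
# S16 / Theta (Θ1): Poisson summation and inversion formula for the theta series of a `ThetaData`
-/

set_option autoImplicit false

namespace Fermat.Agent.S16

open Matrix Complex

section MatrixAlgebra

variable {n : Type*} [Fintype n] [DecidableEq n]

theorem th_qf_ldl (U : Matrix n n ℝ) (δ : n → ℝ) (v : n → ℝ) :
    v ⬝ᵥ (Uᵀ * diagonal δ * U) *ᵥ v = ∑ i, δ i * ((U *ᵥ v) i) ^ 2 := by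
  rw [← mulVec_mulVec, ← mulVec_mulVec, dotProduct_mulVec, vecMul_transpose]
  simp only [dotProduct, mulVec_diagonal]
  exact Finset.sum_congr rfl fun i _ => by ring

theorem th_dual_ldl (U B : Matrix n n ℝ) (δ : n → ℝ) (hδ : ∀ i, δ i ≠ 0) (c : ℝ)
    (hU : U.det = 1) (h : Uᵀ * diagonal δ * U * B = c • (1 : Matrix n n ℝ)) :
    U * B * Uᵀ = c • diagonal (fun i => (δ i)⁻¹) := by
  have hUt : IsUnit Uᵀ.det := by rw [det_transpose, hU]; exact isUnit_one
  have h1 : Uᵀ * (diagonal δ * (U * B * Uᵀ)) = Uᵀ * (c • (1 : Matrix n n ℝ)) := by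
    have : Uᵀ * (diagonal δ * (U * B * Uᵀ)) = (Uᵀ * diagonal δ * U * B) * Uᵀ := by
      simp only [Matrix.mul_assoc]
    rw [this, h]
    simp
  have h2 : diagonal δ * (U * B * Uᵀ) = c • (1 : Matrix n n ℝ) := by
    have := congrArg (fun M => Uᵀ⁻¹ * M) h1
    simpa only [← Matrix.mul_assoc, nonsing_inv_mul _ hUt, Matrix.one_mul] using this
  have h3 := congrArg (fun M => diagonal (fun i => (δ i)⁻¹) * M) h2
  simp only [← Matrix.mul_assoc, diagonal_mul_diagonal] at h3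
  have h4 : (diagonal fun i => (δ i)⁻¹ * δ i) = (1 : Matrix n n ℝ) := by
    rw [← diagonal_one]
    congr 1
    funext i
    exact inv_mul_cancel₀ (hδ i)
  rw [h4] at h3
  simpa [Matrix.mul_assoc] using h3

omit [DecidableEq n] in
theorem th_qf_dual (U B : Matrix n n ℝ) (η : n → ℝ) :
    (Uᵀ *ᵥ η) ⬝ᵥ B *ᵥ (Uᵀ *ᵥ η) = η ⬝ᵥ (U * B * Uᵀ) *ᵥ η := by
  rw [← mulVec_mulVec, ← mulVec_mulVec, dotProduct_mulVec (Uᵀ *ᵥ η), dotProduct_mulVec η U,
    ← vecMul_transpose]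
  simp [Matrix.transpose_transpose, dotProduct_mulVec]

end MatrixAlgebra

variable {p : ℕ}

/-- The real version of `U`. -/
noncomputable def th_UR (D : ThetaData p) : Matrix (Fin 4) (Fin 4) ℝ := D.U.map (Rat.castHom ℝ)

/-- The real version of `δ`. -/
noncomputable def th_δR (D : ThetaData p) : Fin 4 → ℝ := fun i => (D.δ i : ℝ)

theorem th_δR_pos (D : ThetaData p) (i : Fin 4) : 0 < th_δR D i := by
  have := D.δ_pos i
  simp only [th_δR]
  exact_mod_cast this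

theorem th_UR_diag (D : ThetaData p) (i : Fin 4) : th_UR D i i = 1 := by
  simp [th_UR, D.U_diag]

theorem th_UR_lower (D : ThetaData p) (i j : Fin 4) (h : j < i) : th_UR D i j = 0 := by
  simp [th_UR, D.U_lower i j h]

theorem th_UR_det (D : ThetaData p) : (th_UR D).det = 1 := by
  rw [Matrix.det_of_isUpperTriangular]
  · simp [th_UR_diag]
  · intro i j h
    exact th_UR_lower D i j h

theorem th_ldlR (D : ThetaData p) :
    D.A.map (Int.cast : ℤ → ℝ) = (th_UR D)ᵀ * diagonal (th_δR D) * th_UR D := by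
  have h := congrArg (fun M : Matrix (Fin 4) (Fin 4) ℚ => M.map (Rat.castHom ℝ)) D.ldl
  simp only [Matrix.map_mul, Matrix.transpose_map] at h
  rw [Matrix.diagonal_map (map_zero _)] at h
  rw [Matrix.map_map] at h
  have e : (⇑(Rat.castHom ℝ) ∘ (Int.cast : ℤ → ℚ)) = (Int.cast : ℤ → ℝ) := by
    funext x; simp
  rw [e] at h
  exact h

theorem th_mulR (D : ThetaData p) :
    D.A.map (Int.cast : ℤ → ℝ) * D.B.map (Int.cast : ℤ → ℝ) =
      (p : ℝ) • (1 : Matrix (Fin 4) (Fin 4) ℝ) := by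
  have h := congrArg (fun M : Matrix (Fin 4) (Fin 4) ℤ => M.map (Int.castRingHom ℝ)) D.mul_eq
  simp only [Matrix.map_mul] at h
  rw [show (D.A.map (Int.cast : ℤ → ℝ)) = D.A.map (Int.castRingHom ℝ) from rfl,
    show (D.B.map (Int.cast : ℤ → ℝ)) = D.B.map (Int.castRingHom ℝ) from rfl, h]
  ext i j
  simp only [Matrix.map_apply, Matrix.smul_apply, Matrix.one_apply, Int.coe_castRingHom]
  split_ifs <;> simp

theorem th_UBUt (D : ThetaData p) :
    th_UR D * D.B.map (Int.cast : ℤ → ℝ) * (th_UR D)ᵀ =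
      (p : ℝ) • diagonal (fun i => (th_δR D i)⁻¹) := by
  apply th_dual_ldl _ _ _ (fun i => (th_δR_pos D i).ne') _ (th_UR_det D)
  rw [← th_ldlR, th_mulR]

theorem th_δR_prod (D : ThetaData p) :
    th_δR D 0 * (th_δR D 1 * (th_δR D 2 * (th_δR D 3 * 1))) = (p : ℝ) ^ 2 := by
  have h := congrArg (fun q : ℚ => (q : ℝ)) D.δ_prod
  simp only [Fin.prod_univ_four, Rat.cast_mul, Rat.cast_pow, Rat.cast_natCast] at h
  simp only [th_δR, mul_one]
  rw [← h]
  ring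

theorem th_gpPair (D : ThetaData p) (hp : 0 < p) :
    gp_Pair 4 (qfR D.A) (fun y : Fin 4 → ℝ => qfR D.B y / (p : ℝ)) ((p : ℝ) ^ 2) := by
  have hp' : (p : ℝ) ≠ 0 := by exact_mod_cast hp.ne'
  have h00 := th_UR_diag D 0
  have h11 := th_UR_diag D 1
  have h22 := th_UR_diag D 2
  have h33 := th_UR_diag D 3
  have h10 := th_UR_lower D 1 0 (by decide)
  have h20 := th_UR_lower D 2 0 (by decide)
  have h21 := th_UR_lower D 2 1 (by decide)
  have h30 := th_UR_lower D 3 0 (by decide)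
  have h31 := th_UR_lower D 3 1 (by decide)
  have h32 := th_UR_lower D 3 2 (by decide)
  have hd0 := (th_δR_pos D 0).ne'
  have hd1 := (th_δR_pos D 1).ne'
  have hd2 := (th_δR_pos D 2).ne'
  have hd3 := (th_δR_pos D 3).ne'
  have g1 := gp_Pair.cons (th_δR D 3) (th_δR_pos D 3) (fun _ : Fin 0 => (0 : ℝ)) gp_Pair.nil
  have g2 := gp_Pair.cons (th_δR D 2) (th_δR_pos D 2) (fun _ : Fin 1 => th_UR D 2 3) g1
  have g3 := gp_Pair.cons (th_δR D 1) (th_δR_pos D 1) (![th_UR D 1 2, th_UR D 1 3]) g2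
  have g4 := gp_Pair.cons (th_δR D 0) (th_δR_pos D 0)
    (![th_UR D 0 1, th_UR D 0 2, th_UR D 0 3]) g3
  convert g4 using 1
  · funext x
    rw [qfR, th_ldlR, th_qf_ldl]
    simp [Fin.sum_univ_succ, Matrix.mulVec, dotProduct, h00, h11, h22, h33, h10, h20, h21, h30,
      h31, h32]
  · funext y
    set η : Fin 4 → ℝ := ![y 0, y 1 - th_UR D 0 1 * y 0,
      y 2 - th_UR D 0 2 * y 0 - th_UR D 1 2 * (y 1 - th_UR D 0 1 * y 0),
      y 3 - th_UR D 0 3 * y 0 - th_UR D 1 3 * (y 1 - th_UR D 0 1 * y 0) -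
        th_UR D 2 3 * (y 2 - th_UR D 0 2 * y 0 - th_UR D 1 2 * (y 1 - th_UR D 0 1 * y 0))] with hη
    have hy : y = (th_UR D)ᵀ *ᵥ η := by
      funext j
      fin_cases j <;>
        simp [Matrix.mulVec, dotProduct, Fin.sum_univ_succ, hη, h00, h11, h22, h33, h10, h20, h21,
          h30, h31, h32]
    have hB : qfR D.B y = (p : ℝ) * ((η 0) ^ 2 / th_δR D 0 + (η 1) ^ 2 / th_δR D 1 +
        (η 2) ^ 2 / th_δR D 2 + (η 3) ^ 2 / th_δR D 3) := by
      rw [qfR]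
      conv_lhs => rw [hy]
      rw [th_qf_dual, th_UBUt]
      simp [Matrix.mulVec, dotProduct, Fin.sum_univ_succ, Matrix.smul_apply, Matrix.diagonal]
      ring
    rw [hB]
    simp [hη]
    field_simp
    ring
  · exact (th_δR_prod D).symm

theorem th_p_pos (D : ThetaData p) : 0 < p := by
  rcases Nat.eq_zero_or_pos p with h | h
  · exfalso
    have h1 := D.δ_prod
    have h2 : (0 : ℚ) < ∏ i, D.δ i := Finset.prod_pos fun i _ => D.δ_pos i
    rw [h1, h] at h2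
    simp at h2
  · exact h

theorem th_gpF_eq (D : ThetaData p) (τ : ℂ) (u : Fin 4 → ℝ) (m : Fin 4 → ℤ) :
    gp_F (qfR D.A) τ u 0 m =
      cexp (Real.pi * I * τ * (qfR D.A (fun i => (m i : ℝ) + u i) : ℂ)) := by
  simp [gp_F]

theorem th_gpG_eq (D : ThetaData p) {τ : ℂ} (h0 : τ ≠ 0) (u : Fin 4 → ℝ)
    (y : Fin 4 → ℤ) :
    gp_G (fun y : Fin 4 → ℝ => qfR D.B y / (p : ℝ)) τ u 0 y =
      cexp (-Real.pi * I * (qfZ D.B y : ℂ) / (p * τ) +
        2 * Real.pi * I * ∑ i, (y i : ℂ) * (u i : ℂ)) := by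
  have hp' : (p : ℂ) ≠ 0 := by exact_mod_cast (th_p_pos D).ne'
  have e1 : qfR D.B (fun i => (y i : ℝ)) = ((qfZ D.B y : ℤ) : ℝ) := (qfZ_cast D.B y).symm
  simp only [gp_G, Pi.zero_apply, sub_zero, e1]
  congr 1
  push_cast
  field_simp

/-- (Θ1) summability of the shifted theta series. -/
theorem th_summable (D : ThetaData p) {τ : ℂ} (hτ : 0 < τ.im) (u : Fin 4 → ℝ) :
    Summable (fun m : Fin 4 → ℤ =>
      cexp (Real.pi * I * τ * (qfR D.A (fun i => (m i : ℝ) + u i) : ℂ))) :=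
  (gp_summable_F (th_gpPair D (th_p_pos D)).ub.1 hτ u 0).congr fun m => th_gpF_eq D τ u m

/-- Summability of the dual series. -/
theorem th_summable_dual (D : ThetaData p) {τ : ℂ} (hτ : 0 < τ.im) (u : Fin 4 → ℝ) :
    Summable fun y : Fin 4 → ℤ =>
      cexp (-Real.pi * I * (qfZ D.B y : ℂ) / (p * τ) +
        2 * Real.pi * I * ∑ i, (y i : ℂ) * (u i : ℂ)) := by
  have h0 : τ ≠ 0 := fun h => by simp [h] at hτ
  exact (gp_summable_G (th_gpPair D (th_p_pos D)).ub.2 hτ u 0).congr fun y => th_gpG_eq D h0 u y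

theorem th_cpow_half_pow_four (τ : ℂ) :
    (1 / (-I * τ) ^ (1 / 2 : ℂ)) ^ 4 = -(τ ^ 2)⁻¹ := by
  have h1 : ((-I * τ) ^ (1 / 2 : ℂ)) ^ 4 = (-I * τ) ^ 2 := by
    rw [← Complex.cpow_nat_mul]
    norm_num
  rw [one_div, inv_pow, h1]
  have h2 : (-I * τ) ^ 2 = -(τ ^ 2) := by
    rw [mul_pow, neg_sq, I_sq]
    ring
  rw [h2, inv_neg]

/-- (Θ1) Poisson summation for the quaternary theta series with shift `u`. -/
theorem th_poisson (D : ThetaData p) (hp : 0 < p) {τ : ℂ} (hτ : 0 < τ.im) (u : Fin 4 → ℝ) :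
    ∑' m : Fin 4 → ℤ, cexp (Real.pi * I * τ * (qfR D.A (fun i => (m i : ℝ) + u i) : ℂ)) =
      -(τ ^ 2)⁻¹ * (p : ℂ)⁻¹ * ∑' y : Fin 4 → ℤ,
        cexp (-Real.pi * I * (qfZ D.B y : ℂ) / (p * τ) +
          2 * Real.pi * I * (∑ i, (y i : ℂ) * (u i : ℂ))) := by
  have h0 : τ ≠ 0 := fun h => by simp [h] at hτ
  have h := gp_main (th_gpPair D hp) hτ u 0
  rw [tsum_congr (th_gpF_eq D τ u), tsum_congr (th_gpG_eq D h0 u)] at h
  rw [h, th_cpow_half_pow_four τ]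
  congr 2
  rw [Real.sqrt_sq (by positivity)]
  simp

/-- Summability of the theta series itself. -/
theorem th_summable_thetaFn (D : ThetaData p) {z : ℂ} (hz : 0 < z.im) :
    Summable (fun x : Fin 4 → ℤ => cexp (Real.pi * I * z * (qfZ D.A x : ℂ))) := by
  refine (th_summable D hz 0).congr fun x => ?_
  have : qfR D.A (fun i => (x i : ℝ) + (0 : Fin 4 → ℝ) i) = ((qfZ D.A x : ℤ) : ℝ) := by
    rw [qfZ_cast]; simp
  rw [this]
  push_cast
  rfl

/-- (Θ1) the inversion formula. -/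
theorem th_inversion (D : ThetaData p) (hp : 0 < p) (z : UpperHalfPlane) :
    thetaFn D.A (-1 / (z : ℂ)) = -(z : ℂ) ^ 2 * (p : ℂ)⁻¹ *
      ∑' y : Fin 4 → ℤ, cexp (Real.pi * I * z * (qfZ D.B y : ℂ) / p) := by
  have hz0 : (z : ℂ) ≠ 0 := UpperHalfPlane.ne_zero z
  have hp' : (p : ℂ) ≠ 0 := by exact_mod_cast hp.ne'
  have hτ : 0 < (-1 / (z : ℂ)).im := gp_im_neg_inv z.im_pos
  have h := th_poisson D hp hτ 0
  have hL : ∀ m : Fin 4 → ℤ,
      cexp (Real.pi * I * (-1 / (z : ℂ)) *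
        (qfR D.A (fun i => (m i : ℝ) + (0 : Fin 4 → ℝ) i) : ℂ)) =
      cexp (Real.pi * I * (-1 / (z : ℂ)) * (qfZ D.A m : ℂ)) := by
    intro m
    have : qfR D.A (fun i => (m i : ℝ) + (0 : Fin 4 → ℝ) i) = ((qfZ D.A m : ℤ) : ℝ) := by
      rw [qfZ_cast]; simp
    rw [this]
    push_cast
    rfl
  have hR : ∀ y : Fin 4 → ℤ,
      cexp (-Real.pi * I * (qfZ D.B y : ℂ) / (p * (-1 / (z : ℂ))) +
          2 * Real.pi * I * (∑ i, (y i : ℂ) * (((0 : Fin 4 → ℝ) i : ℝ) : ℂ))) =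
      cexp (Real.pi * I * z * (qfZ D.B y : ℂ) / p) := by
    intro y
    congr 1
    simp only [Pi.zero_apply, ofReal_zero, mul_zero, Finset.sum_const_zero, add_zero]
    field_simp
  rw [tsum_congr hL, tsum_congr hR] at h
  rw [thetaFn, h]
  congr 1
  field_simp

end Fermat.Agent.S16
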