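import Mathlib
import Fermat.Agent.S16.Theta.Defs

/-!
# Theta series of S16, part Θ5a: positivity, normal convergence, holomorphy

For `D : ThetaData p` the quadratic forms `qfZ D.A`, `qfZ D.B` are positive (semi)definite (from
the `LDL` data); given the summability of the theta series at every point of the upper half plane,
the series converges normally on `{ε < Im z}`, so `thetaFn M` is holomorphic there and bounded on
`{ε ≤ Im z}`.
-/

set_option autoImplicit false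

namespace Fermat.Agent.S16

open Matrix Complex

variable {p : ℕ}

/-- The `LDL` identity evaluated on integer vectors. -/
theorem tf_qfZ_eq_sum (D : ThetaData p) (x : Fin 4 → ℤ) :
    ((qfZ D.A x : ℤ) : ℚ) =
      ∑ i, D.δ i * ((D.U *ᵥ (fun j => (x j : ℚ))) i) ^ 2 := by
  have h1 : ((qfZ D.A x : ℤ) : ℚ) =
      (fun j => (x j : ℚ)) ⬝ᵥ (D.A.map (Int.cast : ℤ → ℚ)) *ᵥ (fun j => (x j : ℚ)) := by
    simp [qfZ, dotProduct, mulVec, Finset.mul_sum]
  rw [h1, D.ldl, ← mulVec_mulVec, ← mulVec_mulVec, dotProduct_mulVec, vecMul_transpose]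
  simp only [dotProduct, mulVec_diagonal]
  refine Finset.sum_congr rfl fun i _ => ?_
  ring

theorem tf_qfZ_nonneg (D : ThetaData p) (x : Fin 4 → ℤ) : 0 ≤ qfZ D.A x := by
  have h := tf_qfZ_eq_sum D x
  have h2 : (0 : ℚ) ≤ ((qfZ D.A x : ℤ) : ℚ) := by
    rw [h]
    exact Finset.sum_nonneg fun i _ => mul_nonneg (D.δ_pos i).le (sq_nonneg _)
  exact_mod_cast h2

theorem tf_U_det (D : ThetaData p) : D.U.det = 1 := by
  rw [Matrix.det_of_isUpperTriangular]
  · simp [D.U_diag]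
  · intro i j hij
    exact D.U_lower i j hij

theorem tf_eq_zero_of_qfZ_eq_zero (D : ThetaData p) (x : Fin 4 → ℤ) (h : qfZ D.A x = 0) :
    x = 0 := by
  have h1 := tf_qfZ_eq_sum D x
  rw [h, Int.cast_zero] at h1
  have h2 : ∀ i ∈ Finset.univ, D.δ i * ((D.U *ᵥ (fun j => (x j : ℚ))) i) ^ 2 = 0 :=
    (Finset.sum_eq_zero_iff_of_nonneg
      (fun i _ => mul_nonneg (D.δ_pos i).le (sq_nonneg _))).mp h1.symm
  have h3 : D.U *ᵥ (fun j => (x j : ℚ)) = 0 := by
    ext i
    have := h2 i (Finset.mem_univ i)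
    rcases mul_eq_zero.mp this with h4 | h4
    · exact absurd h4 (D.δ_pos i).ne'
    · simpa using h4
  have h4 : (fun j => (x j : ℚ)) = 0 :=
    Matrix.eq_zero_of_mulVec_eq_zero (by rw [tf_U_det]; exact one_ne_zero) h3
  ext j
  have := congrFun h4 j
  simpa using this

/-- `q_A(B y) = p · q_B(y)`. -/
theorem tf_qfZ_A_mulVec_B (D : ThetaData p) (y : Fin 4 → ℤ) :
    qfZ D.A (D.B *ᵥ y) = (p : ℤ) * qfZ D.B y := by
  unfold qfZ
  rw [mulVec_mulVec, D.mul_eq, smul_mulVec, one_mulVec, dotProduct_smul, smul_eq_mul]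
  congr 1
  rw [dotProduct_comm, dotProduct_mulVec, ← mulVec_transpose, D.B_symm.eq]

theorem tf_qfZ_B_nonneg (D : ThetaData p) (hp : 0 < p) (y : Fin 4 → ℤ) : 0 ≤ qfZ D.B y := by
  have h := tf_qfZ_A_mulVec_B D y
  have h1 := tf_qfZ_nonneg D (D.B *ᵥ y)
  rw [h] at h1
  exact nonneg_of_mul_nonneg_right h1 (by exact_mod_cast hp)

theorem tf_mulVec_B_injective (D : ThetaData p) (hp : 0 < p) :
    Function.Injective (fun y : Fin 4 → ℤ => D.B *ᵥ y) := by
  intro y y' h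
  have h1 : D.A *ᵥ (D.B *ᵥ y) = D.A *ᵥ (D.B *ᵥ y') := congrArg _ h
  rw [mulVec_mulVec, mulVec_mulVec, D.mul_eq, smul_mulVec, smul_mulVec, one_mulVec,
    one_mulVec] at h1
  ext i
  have h2 := congrFun h1 i
  simp only [Pi.smul_apply, smul_eq_mul] at h2
  exact mul_left_cancel₀ (by exact_mod_cast hp.ne') h2

theorem tf_norm_term (q : ℤ) (z : ℂ) :
    ‖cexp (Real.pi * I * z * (q : ℂ))‖ = Real.exp (-(Real.pi * z.im * q)) := by
  rw [Complex.norm_exp]
  congr 1
  simp [Complex.mul_re, Complex.mul_im]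

theorem tf_norm_term_le {q : ℤ} (hq : 0 ≤ q) {ε : ℝ} {z : ℂ} (hz : ε ≤ z.im) :
    ‖cexp (Real.pi * I * z * (q : ℂ))‖ ≤ Real.exp (-(Real.pi * ε * q)) := by
  rw [tf_norm_term]
  apply Real.exp_le_exp.mpr
  have hq' : (0 : ℝ) ≤ q := by exact_mod_cast hq
  have := mul_le_mul_of_nonneg_right (mul_le_mul_of_nonneg_left hz Real.pi_pos.le) hq'
  linarith

/-- Summability of the majorant `exp(-π ε q(x))`. -/
theorem tf_summable_exp (M : Matrix (Fin 4) (Fin 4) ℤ)
    (hsum : ∀ τ : ℂ, 0 < τ.im →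
      Summable (fun x : Fin 4 → ℤ => cexp (Real.pi * I * τ * (qfZ M x : ℂ))))
    {ε : ℝ} (hε : 0 < ε) :
    Summable (fun x : Fin 4 → ℤ => Real.exp (-(Real.pi * ε * (qfZ M x : ℝ)))) := by
  have h := (hsum (ε * I) (by simpa using hε)).norm
  refine h.congr fun x => ?_
  rw [tf_norm_term]
  simp

theorem tf_differentiableOn (M : Matrix (Fin 4) (Fin 4) ℤ) (hM : ∀ x, 0 ≤ qfZ M x)
    (hsum : ∀ τ : ℂ, 0 < τ.im →
      Summable (fun x : Fin 4 → ℤ => cexp (Real.pi * I * τ * (qfZ M x : ℂ))))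
    {ε : ℝ} (hε : 0 < ε) :
    DifferentiableOn ℂ (thetaFn M) {z : ℂ | ε < z.im} := by
  unfold thetaFn
  refine differentiableOn_tsum_of_summable_norm (tf_summable_exp M hsum hε) (fun x => ?_)
    (isOpen_lt continuous_const Complex.continuous_im) (fun x z hz => ?_)
  · exact (Complex.differentiable_exp.comp
      ((differentiable_const _).mul differentiable_id |>.mul (differentiable_const _))).differentiableOn
  · exact tf_norm_term_le (hM x) (le_of_lt hz)

theorem tf_differentiableAt (M : Matrix (Fin 4) (Fin 4) ℤ) (hM : ∀ x, 0 ≤ qfZ M x)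
    (hsum : ∀ τ : ℂ, 0 < τ.im →
      Summable (fun x : Fin 4 → ℤ => cexp (Real.pi * I * τ * (qfZ M x : ℂ))))
    {z : ℂ} (hz : 0 < z.im) : DifferentiableAt ℂ (thetaFn M) z := by
  have h := tf_differentiableOn M hM hsum (half_pos hz)
  exact h.differentiableAt ((isOpen_lt continuous_const Complex.continuous_im).mem_nhds
    (by simp only [Set.mem_ofPred_eq]; linarith))

theorem tf_norm_thetaFn_le (M : Matrix (Fin 4) (Fin 4) ℤ) (hM : ∀ x, 0 ≤ qfZ M x)
    (hsum : ∀ τ : ℂ, 0 < τ.im →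
      Summable (fun x : Fin 4 → ℤ => cexp (Real.pi * I * τ * (qfZ M x : ℂ))))
    {ε : ℝ} (hε : 0 < ε) {z : ℂ} (hz : ε ≤ z.im) :
    ‖thetaFn M z‖ ≤ ∑' x : Fin 4 → ℤ, Real.exp (-(Real.pi * ε * (qfZ M x : ℝ))) :=
  tsum_of_norm_bounded (tf_summable_exp M hsum hε).hasSum fun x => tf_norm_term_le (hM x) hz

end Fermat.Agent.S16
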