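import Mathlib
import Fermat.Agent.S16.Theta.Holo

/-!
# Theta series of S16, part Θ5a: the theta series as a modular form of level `Γ₀(p)`

From the analytic inputs `tfHyp D` (summability, inversion formula, `Γ₀(p)`-invariance) we bundle
`z ↦ thetaFn D.A z` as a `ModularForm (Gamma0 p) 2`: holomorphy by normal convergence, and
boundedness at all cusps from `SL(2,ℤ) = Γ₀(p) ∪ Γ₀(p)·S·T^j` and the inversion formula.
-/

set_option autoImplicit false
set_option linter.style.haveILetI false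

namespace Fermat.Agent.S16

open Matrix Complex ModularGroup CongruenceSubgroup
open UpperHalfPlane hiding I
open scoped MatrixGroups ModularForm Manifold

variable {p : ℕ}

/-- The analytic inputs on the theta function (blocks Θ1 and Θ4). -/
structure tfHyp (D : ThetaData p) : Prop where
  summable : ∀ τ : ℂ, 0 < τ.im →
    Summable (fun x : Fin 4 → ℤ => cexp (Real.pi * I * τ * (qfZ D.A x : ℂ)))
  inversion : ∀ z : ℍ, thetaFn D.A (-1 / (z : ℂ)) =
    -(z : ℂ) ^ 2 * (p : ℂ)⁻¹ * ∑' y : Fin 4 → ℤ, cexp (Real.pi * I * z * (qfZ D.B y : ℂ) / p)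
  invariant : ∀ γ : SL(2, ℤ), (p : ℤ) ∣ γ 1 0 → ∀ z : ℍ,
    thetaFn D.A ((γ • z : ℍ) : ℂ) = ((γ 1 0 : ℂ) * z + (γ 1 1 : ℂ)) ^ 2 * thetaFn D.A z

/-- The theta function on the upper half plane. -/
noncomputable def tfTheta (D : ThetaData p) : ℍ → ℂ := fun z => thetaFn D.A (z : ℂ)

theorem tf_mdifferentiable (D : ThetaData p) (H : tfHyp D) : MDiff (tfTheta D) := by
  rw [UpperHalfPlane.mdifferentiable_iff]
  intro z hz
  have h1 : DifferentiableAt ℂ (thetaFn D.A) z :=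
    tf_differentiableAt D.A (tf_qfZ_nonneg D) H.summable hz
  refine (h1.differentiableWithinAt).congr (fun w hw => ?_) ?_
  · simp only [Function.comp_apply, tfTheta, ofComplex_apply_of_im_pos hw, coe_mk]
  · simp only [Function.comp_apply, tfTheta, ofComplex_apply_of_im_pos hz, coe_mk]

theorem tf_slash_of_mem (D : ThetaData p) (H : tfHyp D) (γ : SL(2, ℤ)) (hγ : (p : ℤ) ∣ γ 1 0) :
    tfTheta D ∣[(2 : ℤ)] γ = tfTheta D := by
  ext z
  rw [ModularForm.SL_slash_apply]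
  have hden : denom γ z ≠ 0 := denom_ne_zero _ z
  have h1 := H.invariant γ hγ z
  simp only [tfTheta]
  rw [h1, ← ModularGroup.denom_apply]
  field_simp

theorem tf_isBoundedAtImInfty_theta (D : ThetaData p) (H : tfHyp D) :
    IsBoundedAtImInfty (tfTheta D) := by
  rw [isBoundedAtImInfty_iff]
  refine ⟨∑' x : Fin 4 → ℤ, Real.exp (-(Real.pi * 1 * (qfZ D.A x : ℝ))), 1, fun z hz => ?_⟩
  exact tf_norm_thetaFn_le D.A (tf_qfZ_nonneg D) H.summable one_pos hz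

/-- The dual theta series `∑_y exp(π i z q_B(y) / p)`. -/
noncomputable def tfPsi (D : ThetaData p) : ℍ → ℂ := fun z =>
  ∑' y : Fin 4 → ℤ, cexp (Real.pi * I * z * (qfZ D.B y : ℂ) / p)

theorem tf_summable_B (D : ThetaData p) (H : tfHyp D) (hp : 0 < p) :
    Summable (fun y : Fin 4 → ℤ => Real.exp (-(Real.pi * (1 / (p : ℝ)) * (qfZ D.B y : ℝ)))) := by
  have hp' : (0 : ℝ) < p := by exact_mod_cast hp
  have h1 := tf_summable_exp D.A H.summable (ε := 1 / (p : ℝ) ^ 2) (by positivity)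
  have h2 := h1.comp_injective (tf_mulVec_B_injective D hp)
  refine h2.congr fun y => ?_
  simp only [Function.comp_apply]
  rw [tf_qfZ_A_mulVec_B]
  congr 1
  push_cast
  field_simp

theorem tf_isBoundedAtImInfty_psi (D : ThetaData p) (H : tfHyp D) (hp : 0 < p) :
    IsBoundedAtImInfty (tfPsi D) := by
  have hp' : (0 : ℝ) < p := by exact_mod_cast hp
  rw [isBoundedAtImInfty_iff]
  refine ⟨∑' y : Fin 4 → ℤ, Real.exp (-(Real.pi * (1 / (p : ℝ)) * (qfZ D.B y : ℝ))), 1,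
    fun z hz => ?_⟩
  refine tsum_of_norm_bounded (tf_summable_B D H hp).hasSum fun y => ?_
  have h1 : Real.pi * I * (z : ℂ) * (qfZ D.B y : ℂ) / p =
      Real.pi * I * ((z : ℂ) / p) * (qfZ D.B y : ℂ) := by ring
  rw [h1]
  refine tf_norm_term_le (tf_qfZ_B_nonneg D hp y) ?_
  have h2 : ((z : ℂ) / (p : ℂ)).im = z.im / p := by
    rw [show ((p : ℂ)) = ((p : ℝ) : ℂ) by simp, Complex.div_ofReal_im]
    rfl
  rw [h2]
  exact div_le_div_of_nonneg_right hz hp'.le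

theorem tf_slash_S (D : ThetaData p) (H : tfHyp D) :
    tfTheta D ∣[(2 : ℤ)] S = (-(p : ℂ)⁻¹) • tfPsi D := by
  ext z
  rw [ModularForm.SL_slash_apply, ModularGroup.denom_S]
  have hz : (z : ℂ) ≠ 0 := ne_zero z
  have h1 : ((S • z : ℍ) : ℂ) = -1 / (z : ℂ) := by
    rw [modular_S_smul, coe_mk, inv_neg, neg_div, one_div]
  simp only [tfTheta, h1, H.inversion z, tfPsi, Pi.smul_apply, smul_eq_mul]
  field_simp

theorem tf_exists_coset (hp : p.Prime) (γ : SL(2, ℤ)) (hγ : ¬ (p : ℤ) ∣ γ 1 0) :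
    ∃ (γ₀ : SL(2, ℤ)) (j : ℤ), (p : ℤ) ∣ γ₀ 1 0 ∧ γ = γ₀ * S * T ^ j := by
  have := Fact.mk hp
  have hc : ((γ 1 0 : ℤ) : ZMod p) ≠ 0 := by
    rwa [Ne, ZMod.intCast_zmod_eq_zero_iff_dvd]
  set x : ZMod p := ((γ 1 1 : ℤ) : ZMod p) * ((γ 1 0 : ℤ) : ZMod p)⁻¹ with hx
  have hjx : (((x.val : ℕ) : ℤ) : ZMod p) = x := by
    rw [Int.cast_natCast, ZMod.natCast_zmod_val]
  set j : ℤ := ((x.val : ℕ) : ℤ) with hj
  have hjc : (p : ℤ) ∣ j * γ 1 0 - γ 1 1 := by
    rw [← ZMod.intCast_zmod_eq_zero_iff_dvd, Int.cast_sub, Int.cast_mul, hjx, hx, mul_assoc,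
      inv_mul_cancel₀ hc, mul_one, sub_self]
  have hdet : γ 0 0 * γ 1 1 - γ 0 1 * γ 1 0 = 1 := by
    have := γ.2
    rwa [Matrix.det_fin_two] at this
  have hdet' : (!![-(γ 0 1 - j * γ 0 0), γ 0 0; -(γ 1 1 - j * γ 1 0), γ 1 0] :
      Matrix (Fin 2) (Fin 2) ℤ).det = 1 := by
    rw [Matrix.det_fin_two_of]
    linear_combination hdet
  let γ₀ : SL(2, ℤ) := ⟨!![-(γ 0 1 - j * γ 0 0), γ 0 0; -(γ 1 1 - j * γ 1 0), γ 1 0], hdet'⟩
  have hγ₀ : (γ₀ : Matrix (Fin 2) (Fin 2) ℤ) =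
      !![-(γ 0 1 - j * γ 0 0), γ 0 0; -(γ 1 1 - j * γ 1 0), γ 1 0] := rfl
  refine ⟨γ₀, j, ?_, ?_⟩
  · show (p : ℤ) ∣ -(γ 1 1 - j * γ 1 0)
    have : -(γ 1 1 - j * γ 1 0) = j * γ 1 0 - γ 1 1 := by ring
    rw [this]
    exact hjc
  · apply Matrix.SpecialLinearGroup.ext
    intro i k
    rw [Matrix.SpecialLinearGroup.coe_mul, Matrix.SpecialLinearGroup.coe_mul,
      ModularGroup.coe_T_zpow, ModularGroup.coe_S, hγ₀]
    fin_cases i <;> fin_cases k <;> simp [Matrix.mul_apply, Fin.sum_univ_two] <;> ring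

theorem tf_isBoundedAtImInfty_slash (D : ThetaData p) (H : tfHyp D) (hp : p.Prime)
    (γ : SL(2, ℤ)) : IsBoundedAtImInfty (tfTheta D ∣[(2 : ℤ)] γ) := by
  by_cases hγ : (p : ℤ) ∣ γ 1 0
  · rw [tf_slash_of_mem D H γ hγ]
    exact tf_isBoundedAtImInfty_theta D H
  · obtain ⟨γ₀, j, hγ₀, rfl⟩ := tf_exists_coset hp γ hγ
    rw [SlashAction.slash_mul, SlashAction.slash_mul, tf_slash_of_mem D H γ₀ hγ₀, tf_slash_S D H,
      ModularForm.SL_slash]
    refine IsBoundedAtImInfty.slash _ ?_ ?_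
    · have h0 : (T ^ j : SL(2, ℤ)) 1 0 = 0 := by
        rw [ModularGroup.coe_T_zpow]
        rfl
      show (((T ^ j : SL(2, ℤ)) 1 0 : ℤ) : ℝ) = 0
      rw [h0, Int.cast_zero]
    · exact (tf_isBoundedAtImInfty_psi D H hp.pos).const_smul_left _

/-- The theta series as a modular form of weight `2` and level `Γ₀(p)`. -/
noncomputable def tfThetaForm (D : ThetaData p) (H : tfHyp D) (hp : p.Prime) :
    ModularForm (Gamma0 p) 2 where
  toFun := tfTheta D
  slash_action_eq' := by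
    rintro _ ⟨γ, hγ, rfl⟩
    have hγ' : γ ∈ Gamma0 p := hγ
    rw [CongruenceSubgroup.Gamma0_mem, ZMod.intCast_zmod_eq_zero_iff_dvd] at hγ'
    exact tf_slash_of_mem D H γ hγ'
  holo' := tf_mdifferentiable D H
  bdd_at_cusps' {c} hc := by
    haveI : NeZero p := ⟨hp.ne_zero⟩
    rw [Subgroup.IsArithmetic.isCusp_iff_isCusp_SL2Z] at hc
    rw [OnePoint.isBoundedAt_iff_forall_SL2Z hc]
    intro γ _
    exact tf_isBoundedAtImInfty_slash D H hp γ

theorem tf_coe_thetaForm (D : ThetaData p) (H : tfHyp D) (hp : p.Prime) :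
    (tfThetaForm D H hp : ℍ → ℂ) = tfTheta D := rfl

end Fermat.Agent.S16
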