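import Mathlib
import Fermat.Prelude.Thm_CongruenceSubgroup_one_mem_strictPeriods_Gamma0
import Fermat.Agent.S16.Theta.Bundle

/-!
# Theta series of S16, part Θ5b: the `q`-expansion

The `q`-expansion coefficients of the theta series are the representation numbers
`r(n) = #{x ∈ ℤ⁴ | Q(x) = n}`, `Q(x) = q_A(x) / 2`; `r(0) = 1` and `r(n)` is even for `n ≥ 1`.
-/

set_option autoImplicit false
set_option linter.style.haveILetI false

namespace Fermat.Agent.S16

open Matrix Complex ModularGroup CongruenceSubgroup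
open UpperHalfPlane hiding I
open scoped MatrixGroups ModularForm Manifold

variable {p : ℕ}

local notation "𝕢" => Function.Periodic.qParam

/-- A symmetric integral `4 × 4` matrix with even diagonal represents only even numbers. -/
theorem tf_even_qfZ (M : Matrix (Fin 4) (Fin 4) ℤ) (hs : M.IsSymm) (he : ∀ i, Even (M i i))
    (x : Fin 4 → ℤ) : Even (qfZ M x) := by
  obtain ⟨a0, h0⟩ := he 0
  obtain ⟨a1, h1⟩ := he 1
  obtain ⟨a2, h2⟩ := he 2
  obtain ⟨a3, h3⟩ := he 3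
  have s01 := hs.apply 0 1
  have s02 := hs.apply 0 2
  have s03 := hs.apply 0 3
  have s12 := hs.apply 1 2
  have s13 := hs.apply 1 3
  have s23 := hs.apply 2 3
  refine ⟨a0 * x 0 ^ 2 + a1 * x 1 ^ 2 + a2 * x 2 ^ 2 + a3 * x 3 ^ 2 + M 0 1 * x 0 * x 1 +
    M 0 2 * x 0 * x 2 + M 0 3 * x 0 * x 3 + M 1 2 * x 1 * x 2 + M 1 3 * x 1 * x 3 +
    M 2 3 * x 2 * x 3, ?_⟩
  simp only [qfZ, dotProduct, mulVec, Fin.sum_univ_four]
  rw [h0, h1, h2, h3, s01, s02, s03, s12, s13, s23]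
  ring

/-- The exponent `Q(x) = q_A(x) / 2` as a natural number. -/
noncomputable def tfN (D : ThetaData p) (x : Fin 4 → ℤ) : ℕ := (qfZ D.A x / 2).toNat

theorem tf_qfZ_eq_two_mul (D : ThetaData p) (x : Fin 4 → ℤ) :
    qfZ D.A x = 2 * (tfN D x : ℤ) := by
  obtain ⟨k, hk⟩ := tf_even_qfZ D.A D.A_symm D.A_even x
  have h0 := tf_qfZ_nonneg D x
  unfold tfN
  rw [Int.toNat_of_nonneg (by omega)]
  omega

theorem tf_tfN_eq_zero_iff (D : ThetaData p) (x : Fin 4 → ℤ) : tfN D x = 0 ↔ x = 0 := by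
  constructor
  · intro h
    apply tf_eq_zero_of_qfZ_eq_zero D
    rw [tf_qfZ_eq_two_mul, h]
    simp
  · rintro rfl
    have h := tf_qfZ_eq_two_mul D 0
    have h0 : qfZ D.A 0 = 0 := by simp [qfZ]
    omega

theorem tf_tfN_neg (D : ThetaData p) (x : Fin 4 → ℤ) : tfN D (-x) = tfN D x := by
  have h1 := tf_qfZ_eq_two_mul D x
  have h2 := tf_qfZ_eq_two_mul D (-x)
  have h3 : qfZ D.A (-x) = qfZ D.A x := by simp [qfZ, mulVec_neg]
  omega

theorem tf_term_eq (D : ThetaData p) (x : Fin 4 → ℤ) (τ : ℍ) :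
    cexp (Real.pi * I * τ * (qfZ D.A x : ℂ)) = 𝕢 1 (τ : ℂ) ^ tfN D x := by
  unfold Function.Periodic.qParam
  rw [← Complex.exp_nat_mul, tf_qfZ_eq_two_mul]
  congr 1
  push_cast
  ring

theorem tf_finite_fiber (D : ThetaData p) (H : tfHyp D) (n : ℕ) :
    {x : Fin 4 → ℤ | tfN D x = n}.Finite := by
  have h1 := (tf_summable_exp D.A H.summable one_pos).tendsto_cofinite_zero
  have h2 := h1.eventually (gt_mem_nhds (Real.exp_pos (-(Real.pi * 1 * ((2 * n : ℕ) : ℝ)))))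
  rw [Filter.eventually_cofinite] at h2
  refine h2.subset fun x hx => ?_
  simp only [Set.mem_ofPred_eq] at hx ⊢
  rw [not_lt, tf_qfZ_eq_two_mul, hx]
  push_cast
  exact le_rfl

/-- The representation numbers `r(n) = #{x | Q(x) = n}`. -/
noncomputable def tfRep (D : ThetaData p) (n : ℕ) : ℕ := Nat.card {x : Fin 4 → ℤ // tfN D x = n}

theorem tf_hasSum_theta (D : ThetaData p) (H : tfHyp D) (τ : ℍ) :
    HasSum (fun n : ℕ => (tfRep D n : ℂ) • 𝕢 1 (τ : ℂ) ^ n) (tfTheta D τ) := by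
  have h1 : HasSum (fun x : Fin 4 → ℤ => 𝕢 1 (τ : ℂ) ^ tfN D x) (tfTheta D τ) := by
    have h2 := (H.summable τ τ.im_pos).hasSum
    have h5 : (∑' x : Fin 4 → ℤ, cexp (Real.pi * I * τ * (qfZ D.A x : ℂ))) = tfTheta D τ := rfl
    rw [h5] at h2
    simp only [tf_term_eq] at h2
    exact h2
  have h3 := (Equiv.sigmaFiberEquiv (tfN D)).hasSum_iff.mpr h1
  refine HasSum.sigma h3 fun n => ?_
  haveI : Finite {x : Fin 4 → ℤ // tfN D x = n} := (tf_finite_fiber D H n).to_subtype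
  haveI : Fintype {x : Fin 4 → ℤ // tfN D x = n} := Fintype.ofFinite _
  have h4 : (fun c : {x : Fin 4 → ℤ // tfN D x = n} =>
      ((fun x : Fin 4 → ℤ => 𝕢 1 (τ : ℂ) ^ tfN D x) ∘ (Equiv.sigmaFiberEquiv (tfN D))) ⟨n, c⟩) =
      fun _ => 𝕢 1 (τ : ℂ) ^ n := by
    funext c
    simp only [Function.comp_apply, Equiv.sigmaFiberEquiv_apply, c.2]
  rw [h4]
  convert hasSum_fintype (fun _ : {x : Fin 4 → ℤ // tfN D x = n} => 𝕢 1 (τ : ℂ) ^ n) using 1
  rw [Finset.sum_const, Finset.card_univ, tfRep, Nat.card_eq_fintype_card, nsmul_eq_mul,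
    smul_eq_mul]

theorem tf_qExpansion_coeff (D : ThetaData p) (H : tfHyp D) (hp : p.Prime) (n : ℕ) :
    (qExpansion 1 (tfThetaForm D H hp)).coeff n = (tfRep D n : ℂ) := by
  have hΓ := CongruenceSubgroup.one_mem_strictPeriods_Gamma0 p
  exact (ModularFormClass.qExpansion_coeff_unique (f := tfThetaForm D H hp)
    (c := fun n => (tfRep D n : ℂ)) one_pos hΓ (fun τ => tf_hasSum_theta D H τ) n).symm

theorem tf_rep_zero (D : ThetaData p) : tfRep D 0 = 1 := by
  rw [tfRep, Nat.card_eq_one_iff_unique]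
  refine ⟨⟨fun a b => Subtype.ext ?_⟩, ⟨⟨0, (tf_tfN_eq_zero_iff D 0).mpr rfl⟩⟩⟩
  rw [(tf_tfN_eq_zero_iff D a).mp a.2, (tf_tfN_eq_zero_iff D b).mp b.2]

theorem tf_rep_even (D : ThetaData p) (H : tfHyp D) {n : ℕ} (hn : 1 ≤ n) : Even (tfRep D n) := by
  have hfin := tf_finite_fiber D H n
  have hcard : tfRep D n = hfin.toFinset.card := by
    rw [tfRep, ← Set.ncard_eq_toFinset_card _ hfin]
    exact Nat.card_coe_set_eq _
  rw [hcard, ← ZMod.natCast_eq_zero_iff_even]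
  have h1 : ((hfin.toFinset.card : ℕ) : ZMod 2) = ∑ _x ∈ hfin.toFinset, (1 : ZMod 2) := by
    simp
  rw [h1]
  refine Finset.sum_involution (fun x _ => -x) (fun _ _ => by decide) (fun x hx _ => ?_)
    (fun x hx => ?_) (fun x _ => neg_neg x)
  · intro hxx
    have hx0 : x = 0 := by
      ext i
      have := congrFun hxx i
      simp only [Pi.neg_apply, Pi.zero_apply] at this ⊢
      omega
    have hxn : tfN D x = n := by simpa using hx
    rw [hx0, (tf_tfN_eq_zero_iff D 0).mpr rfl] at hxn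
    omega
  · have hxn : tfN D x = n := by simpa using hx
    simpa [tf_tfN_neg] using hxn

end Fermat.Agent.S16
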