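import Mathlib
import Fermat.Agent.S16.Theta.QExp

/-!
# Theta series of S16, part Θ5: the theta series of level `Γ₀(p)` with `Θ ≡ 1 mod 2`

`tf_exists_theta_of_hyp`: given lattice data `D : ThetaData p` and the analytic inputs `tfHyp D`
(summability, inversion formula, `Γ₀(p)`-invariance), there is a modular form of weight `2` and
level `Γ₀(p)` with constant term `1` and all higher `q`-expansion coefficients even.

`tf_hyp_of_frozen` converts the frozen statement shapes of the blocks Θ1 (`th_summable`,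
`th_inversion`) and Θ4 (`th_invariant`) into `tfHyp D`.
-/

set_option autoImplicit false

namespace Fermat.Agent.S16

open Matrix Complex ModularGroup CongruenceSubgroup
open UpperHalfPlane hiding I
open scoped MatrixGroups ModularForm Manifold

variable {p : ℕ}

/-- The theta series: constant term `1`, all other coefficients even. -/
theorem tf_exists_theta_of_hyp (hp : p.Prime) (D : ThetaData p) (H : tfHyp D) :
    ∃ Θ : ModularForm (Gamma0 p) 2, (qExpansion 1 Θ).coeff 0 = 1 ∧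
      ∀ n, 1 ≤ n → ∃ m : ℤ, (qExpansion 1 Θ).coeff n = 2 * m := by
  refine ⟨tfThetaForm D H hp, ?_, fun n hn => ?_⟩
  · rw [tf_qExpansion_coeff, tf_rep_zero]
    simp
  · obtain ⟨k, hk⟩ := tf_rep_even D H hn
    refine ⟨k, ?_⟩
    rw [tf_qExpansion_coeff, hk]
    push_cast
    ring

/-- The hypotheses `tfHyp D` from the frozen shapes of `th_summable`, `th_inversion` (block Θ1)
and `th_invariant` (block Θ4). -/
theorem tf_hyp_of_frozen (D : ThetaData p)
    (hsum : ∀ {τ : ℂ}, 0 < τ.im → ∀ u : Fin 4 → ℝ,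
      Summable (fun m : Fin 4 → ℤ =>
        cexp (Real.pi * I * τ * (qfR D.A (fun i => (m i : ℝ) + u i) : ℂ))))
    (hinv : ∀ z : ℍ, thetaFn D.A (-1 / (z : ℂ)) =
      -(z : ℂ) ^ 2 * (p : ℂ)⁻¹ * ∑' y : Fin 4 → ℤ, cexp (Real.pi * I * z * (qfZ D.B y : ℂ) / p))
    (hγ : ∀ γ : SL(2, ℤ), (p : ℤ) ∣ γ 1 0 → ∀ z : ℍ,
      thetaFn D.A ((γ • z : ℍ) : ℂ) = ((γ 1 0 : ℂ) * z + (γ 1 1 : ℂ)) ^ 2 * thetaFn D.A z) :
    tfHyp D := by
  refine ⟨fun τ hτ => ?_, hinv, hγ⟩
  have h := hsum hτ 0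
  refine h.congr fun m => ?_
  have h1 : qfR D.A (fun i => (m i : ℝ) + (0 : Fin 4 → ℝ) i) = ((qfZ D.A m : ℤ) : ℝ) := by
    rw [qfZ_cast]
    simp
  rw [h1]
  push_cast
  rfl

end Fermat.Agent.S16
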