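import Mathlib
import Fermat.Agent.S16.Theta.ThetaForm
import Fermat.Agent.S16.Theta.Lattice
import Fermat.Agent.S16.Theta.Poisson4

/-!
# Theta series of S16: existence, modulo the `Γ₀(p)`-invariance (block Θ4)

`tf_exists_theta_of_invariant`: the frozen statement `exists_theta` of the theta sub-project,
with the invariance statement `th_invariant` (block Θ4) as its only hypothesis.  All other inputs
(`exists_thetaData`, `th_summable`, `th_inversion`) are landed.
-/

set_option autoImplicit false

namespace Fermat.Agent.S16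

open Matrix Complex ModularGroup CongruenceSubgroup
open UpperHalfPlane hiding I
open scoped MatrixGroups ModularForm Manifold

/-- The shape of the frozen statement `th_invariant` (block Θ4) for one `ThetaData`. -/
def tfInvariant {p : ℕ} (D : ThetaData p) : Prop :=
  ∀ γ : SL(2, ℤ), (p : ℤ) ∣ γ 1 0 → ∀ z : ℍ,
    thetaFn D.A ((γ • z : ℍ) : ℂ) = ((γ 1 0 : ℂ) * z + (γ 1 1 : ℂ)) ^ 2 * thetaFn D.A z

/-- `exists_theta`, with the `Γ₀(p)`-invariance of the theta function as a hypothesis. -/
theorem tf_exists_theta_of_invariant (p : ℕ) [Fact p.Prime] (hp : 5 ≤ p)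
    (hinv : ∀ D : ThetaData p, tfInvariant D) :
    ∃ Θ : ModularForm (Gamma0 p) 2, (qExpansion 1 Θ).coeff 0 = 1 ∧
      ∀ n, 1 ≤ n → ∃ m : ℤ, (qExpansion 1 Θ).coeff n = 2 * m := by
  have hpp : p.Prime := Fact.out
  obtain ⟨D⟩ := exists_thetaData hpp (by omega)
  exact tf_exists_theta_of_hyp hpp D
    (tf_hyp_of_frozen D (fun hτ u => th_summable D hτ u) (th_inversion D hpp.pos) (hinv D))

end Fermat.Agent.S16
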