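import Mathlib
import Fermat.Agent.S16.Theta.Defs

/-!
# Theta series sub-project of S16: the quaternary Gauss sum (Θ3)

For a `ThetaData p` (even quaternary lattice of determinant `p ^ 2`) and all primes `t` outside a
finite set, `∑_{g mod t} e(β Q(g) / t) = t ^ 2`.
-/

set_option autoImplicit false

namespace Fermat.Agent.S16

open Matrix Complex

section onedim

variable {t : ℕ} [ht : Fact t.Prime]

/-- The quadratic character of `ZMod t` with values in `ℂ`. -/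
noncomputable def gsChi (t : ℕ) [Fact t.Prime] : MulChar (ZMod t) ℂ :=
  (quadraticChar (ZMod t)).ringHomComp (Int.castRingHom ℂ)

theorem gs_chi_sq_one {a : ZMod t} (ha : a ≠ 0) : gsChi t a ^ 2 = 1 := by
  have h := quadraticChar_sq_one ha
  simp only [gsChi, MulChar.ringHomComp_apply, eq_intCast]
  exact_mod_cast h

theorem gs_chi_sq {a : ZMod t} (ha : a ≠ 0) : gsChi t (a ^ 2) = 1 := by
  rw [map_pow, gs_chi_sq_one ha]


theorem gs_chi_ne_one (h2 : t ≠ 2) : gsChi t ≠ 1 := by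
  have hF : ringChar (ZMod t) ≠ 2 := by rwa [ZMod.ringChar_zmod_n]
  obtain ⟨a, ha⟩ := quadraticChar_exists_neg_one' hF
  intro h
  have h1 : gsChi t (a : ZMod t) = 1 := by rw [h]; exact MulChar.one_apply_coe a
  simp only [gsChi, MulChar.ringHomComp_apply, ha, eq_intCast, Int.cast_neg, Int.cast_one] at h1
  norm_num at h1

theorem gs_chi_isQuadratic : (gsChi t).IsQuadratic :=
  (quadraticChar_isQuadratic (ZMod t)).comp _

/-- The one-dimensional quadratic Gauss sum `∑_y ψ(a y²) = χ(a) g`. -/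
theorem gs_sum_sq (h2 : t ≠ 2) {a : ZMod t} (ha : a ≠ 0) :
    ∑ y : ZMod t, ZMod.stdAddChar (N := t) (a * y ^ 2)
      = gsChi t a * gaussSum (gsChi t) (ZMod.stdAddChar (N := t)) := by
  classical
  have hF : ringChar (ZMod t) ≠ 2 := by rwa [ZMod.ringChar_zmod_n]
  set ψ := ZMod.stdAddChar (N := t) with hψ
  have hprim : ψ.IsPrimitive := ZMod.isPrimitive_stdAddChar t
  have hA : ∑ y : ZMod t, ψ (a * y ^ 2)
      = ∑ z : ZMod t, (((quadraticChar (ZMod t) z : ℤ) : ℂ) + 1) * ψ (a * z) := by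
    rw [← Finset.sum_fiberwise (s := Finset.univ) (g := fun y : ZMod t => y ^ 2)
      (f := fun y => ψ (a * y ^ 2))]
    refine Finset.sum_congr rfl fun z _ => ?_
    have h1 : ∀ y ∈ Finset.univ.filter (fun y : ZMod t => y ^ 2 = z), ψ (a * y ^ 2) = ψ (a * z) := by
      intro y hy
      rw [(Finset.mem_filter.mp hy).2]
    rw [Finset.sum_congr rfl h1, Finset.sum_const, nsmul_eq_mul]
    congr 1
    have h3 := quadraticChar_card_sqrts hF z
    have h4 : ({x : ZMod t | x ^ 2 = z} : Set (ZMod t)).toFinset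
        = Finset.univ.filter (fun y : ZMod t => y ^ 2 = z) := by
      ext x
      simp
    rw [h4] at h3
    have h5 : (((Finset.univ.filter (fun y : ZMod t => y ^ 2 = z)).card : ℤ) : ℂ)
        = (((quadraticChar (ZMod t) z + 1 : ℤ)) : ℂ) := by rw [h3]
    push_cast at h5
    exact h5
  rw [hA]
  simp only [add_mul, one_mul, Finset.sum_add_distrib]
  have hB : ∑ z : ZMod t, ψ (a * z) = 0 := by
    have := AddChar.sum_mulShift a hprim
    simp only [ha, if_false, Nat.cast_zero] at this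
    rw [← this]
    exact Finset.sum_congr rfl fun z _ => by rw [mul_comm]
  rw [hB, add_zero]
  have hu : IsUnit a := isUnit_iff_ne_zero.mpr ha
  obtain ⟨u, rfl⟩ := hu
  have hC := gaussSum_mulShift (gsChi t) ψ u
  have hD : gaussSum (gsChi t) (ψ.mulShift (u : ZMod t))
      = ∑ z : ZMod t, ((quadraticChar (ZMod t) z : ℤ) : ℂ) * ψ ((u : ZMod t) * z) := by
    unfold gaussSum
    refine Finset.sum_congr rfl fun z _ => ?_
    rw [AddChar.mulShift_apply]
    simp [gsChi, MulChar.ringHomComp_apply]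
  rw [← hD, ← hC, ← mul_assoc, ← pow_two, gs_chi_sq_one ha, one_mul]

theorem gs_gaussSum_pow_four (h2 : t ≠ 2) :
    gaussSum (gsChi t) (ZMod.stdAddChar (N := t)) ^ 4 = (t : ℂ) ^ 2 := by
  have h : gaussSum (gsChi t) (ZMod.stdAddChar (N := t)) ^ 2
      = gsChi t (-1) * (Fintype.card (ZMod t) : ℂ) :=
    gaussSum_sq (gs_chi_ne_one h2) gs_chi_isQuadratic (ZMod.isPrimitive_stdAddChar t)
  have h1 : gaussSum (gsChi t) (ZMod.stdAddChar (N := t)) ^ 4
      = (gaussSum (gsChi t) (ZMod.stdAddChar (N := t)) ^ 2) ^ 2 := by ring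
  rw [h1, h, mul_pow, ZMod.card]
  have h3 : gsChi t (-1) ^ 2 = 1 := gs_chi_sq_one (neg_ne_zero.mpr one_ne_zero)
  rw [h3, one_mul]


/-- The diagonal four-dimensional Gauss sum. -/
theorem gs_sum_diag (h2 : t ≠ 2) (a : Fin 4 → ZMod t) (ha : ∀ i, a i ≠ 0) :
    ∑ y : Fin 4 → ZMod t, ZMod.stdAddChar (N := t) (∑ i, a i * y i ^ 2)
      = gsChi t (∏ i, a i) * (t : ℂ) ^ 2 := by
  classical
  set ψ := ZMod.stdAddChar (N := t) with hψ
  have h1 : ∀ y : Fin 4 → ZMod t, ψ (∑ i, a i * y i ^ 2) = ∏ i, ψ (a i * y i ^ 2) := by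
    intro y
    simp only [Fin.sum_univ_four, Fin.prod_univ_four, AddChar.map_add_eq_mul]
  simp_rw [h1]
  have h3 : ∑ y : Fin 4 → ZMod t, ∏ i, ψ (a i * y i ^ 2)
      = ∏ i, ∑ z : ZMod t, ψ (a i * z ^ 2) := by
    rw [Finset.prod_univ_sum, Fintype.piFinset_univ]
  rw [h3]
  have h4 : ∀ i, ∑ z : ZMod t, ψ (a i * z ^ 2) = gsChi t (a i) * gaussSum (gsChi t) ψ :=
    fun i => gs_sum_sq h2 (ha i)
  simp_rw [h4]
  rw [Finset.prod_mul_distrib, Finset.prod_const, Finset.card_univ, Fintype.card_fin,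
    gs_gaussSum_pow_four h2, map_prod]

end onedim

section main

variable {t : ℕ} [ht : Fact t.Prime]

theorem gs_quadform_eq {R : Type*} [CommRing R] (Ā W : Matrix (Fin 4) (Fin 4) R) (e : Fin 4 → R) (κ : R)
    (hid : κ • Ā = Wᵀ * Matrix.diagonal e * W) (x : Fin 4 → R) :
    κ * (x ⬝ᵥ Ā *ᵥ x) = ∑ i, e i * ((W *ᵥ x) i) ^ 2 := by
  have h1 : κ * (x ⬝ᵥ Ā *ᵥ x) = x ⬝ᵥ (κ • Ā) *ᵥ x := by
    rw [Matrix.smul_mulVec, dotProduct_smul, smul_eq_mul]
  rw [h1, hid, ← Matrix.mulVec_mulVec, ← Matrix.mulVec_mulVec, Matrix.dotProduct_mulVec,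
    Matrix.vecMul_transpose]
  simp only [dotProduct, Matrix.mulVec_diagonal]
  refine Finset.sum_congr rfl fun i _ => ?_
  ring

theorem gs_sum_quadratic (h2 : t ≠ 2) (Ā W : Matrix (Fin 4) (Fin 4) (ZMod t)) (e : Fin 4 → ZMod t)
    (κ c : ZMod t) (hκ : κ ≠ 0) (hc : c ≠ 0) (he : ∀ i, e i ≠ 0) (hW : W.det ≠ 0)
    (hid : κ • Ā = Wᵀ * Matrix.diagonal e * W) :
    ∑ x : Fin 4 → ZMod t, ZMod.stdAddChar (N := t) (c * (x ⬝ᵥ Ā *ᵥ x))
      = gsChi t (∏ i, c * κ⁻¹ * e i) * (t : ℂ) ^ 2 := by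
  classical
  have h1 : ∀ x : Fin 4 → ZMod t, c * (x ⬝ᵥ Ā *ᵥ x)
      = ∑ i, (c * κ⁻¹ * e i) * ((W *ᵥ x) i) ^ 2 := by
    intro x
    have := gs_quadform_eq Ā W e κ hid x
    have h3 : x ⬝ᵥ Ā *ᵥ x = κ⁻¹ * ∑ i, e i * ((W *ᵥ x) i) ^ 2 := by
      rw [← this, ← mul_assoc, inv_mul_cancel₀ hκ, one_mul]
    rw [h3, Finset.mul_sum, Finset.mul_sum]
    refine Finset.sum_congr rfl fun i _ => ?_
    ring
  simp_rw [h1]
  have hbij : Function.Bijective (W.mulVec) := by
    have hunit : IsUnit W := (Matrix.isUnit_iff_isUnit_det W).mpr (isUnit_iff_ne_zero.mpr hW)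
    exact Finite.injective_iff_bijective.mp (Matrix.mulVec_injective_iff_isUnit.mpr hunit)
  rw [hbij.sum_comp (fun y : Fin 4 → ZMod t =>
    ZMod.stdAddChar (N := t) (∑ i, (c * κ⁻¹ * e i) * (y i) ^ 2))]
  exact gs_sum_diag h2 _ (fun i => mul_ne_zero (mul_ne_zero hc (inv_ne_zero hκ)) (he i))


end main

theorem gs_exists_int (q : ℚ) (d : ℕ) (h : q.den ∣ d) : ∃ z : ℤ, (z : ℚ) = d * q := by
  obtain ⟨k, rfl⟩ := h
  refine ⟨q.num * k, ?_⟩
  push_cast
  have := Rat.mul_den_eq_num q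
  rw [← this]
  ring

theorem gs_exists_int_ldl {p : ℕ} (D : ThetaData p) :
    ∃ (d : ℕ) (U' : Matrix (Fin 4) (Fin 4) ℤ) (δ' : Fin 4 → ℤ), 0 < d ∧
      (d : ℤ) ^ 3 • D.A = U'ᵀ * Matrix.diagonal δ' * U' ∧
      (∀ i j, j < i → U' i j = 0) ∧ (∀ i, U' i i = d) ∧
      ∏ i, δ' i = (d : ℤ) ^ 4 * (p : ℤ) ^ 2 := by
  classical
  set d : ℕ := (∏ i, (D.δ i).den) * ∏ i, ∏ j, (D.U i j).den with hd
  have hdpos : 0 < d := by
    apply Nat.mul_pos
    · exact Finset.prod_pos fun i _ => (D.δ i).den_pos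
    · exact Finset.prod_pos fun i _ => Finset.prod_pos fun j _ => (D.U i j).den_pos
  have hδd : ∀ i, (D.δ i).den ∣ d := fun i =>
    Dvd.dvd.mul_right (Finset.dvd_prod_of_mem (fun i => (D.δ i).den) (Finset.mem_univ i)) _
  have hUd : ∀ i j, (D.U i j).den ∣ d := fun i j =>
    Dvd.dvd.mul_left ((Finset.dvd_prod_of_mem (fun j => (D.U i j).den) (Finset.mem_univ j)).trans
      (Finset.dvd_prod_of_mem (fun i => ∏ j, (D.U i j).den) (Finset.mem_univ i))) _
  choose δ' hδ' using fun i => gs_exists_int (D.δ i) d (hδd i)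
  choose U' hU' using fun i j => gs_exists_int (D.U i j) d (hUd i j)
  refine ⟨d, Matrix.of U', δ', hdpos, ?_, ?_, ?_, ?_⟩
  · apply Matrix.map_injective (Int.cast_injective (α := ℚ))
    have hUmap : (Matrix.of U').map (Int.cast : ℤ → ℚ) = (d : ℚ) • D.U := by
      ext i j
      simp [hU']
    have hδmap : (Matrix.diagonal δ').map (Int.cast : ℤ → ℚ) = (d : ℚ) • Matrix.diagonal D.δ := by
      ext i j
      by_cases hij : i = j
      · subst hij
        simp [hδ']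
      · simp [Matrix.diagonal_apply_ne _ hij]
    have h1 : ((d : ℤ) ^ 3 • D.A).map (Int.cast : ℤ → ℚ) = (d : ℚ) ^ 3 • D.A.map (Int.cast : ℤ → ℚ) := by
      ext i j
      simp only [Matrix.map_apply, Matrix.smul_apply, smul_eq_mul]
      push_cast
      ring
    beta_reduce
    rw [h1, D.ldl]
    have h2 : ((Matrix.of U')ᵀ * Matrix.diagonal δ' * Matrix.of U').map (Int.cast : ℤ → ℚ)
        = ((Matrix.of U').map (Int.cast : ℤ → ℚ))ᵀ * (Matrix.diagonal δ').map (Int.cast : ℤ → ℚ)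
          * (Matrix.of U').map (Int.cast : ℤ → ℚ) := by
      have := Matrix.map_mul (L := (Matrix.of U')ᵀ * Matrix.diagonal δ') (M := Matrix.of U')
        (f := Int.castRingHom ℚ)
      have h3 := Matrix.map_mul (L := (Matrix.of U')ᵀ) (M := Matrix.diagonal δ')
        (f := Int.castRingHom ℚ)
      simp only [Int.coe_castRingHom] at this h3
      rw [this, h3, Matrix.transpose_map]
    rw [h2, hUmap, hδmap]
    simp only [Matrix.transpose_smul, Matrix.smul_mul, Matrix.mul_smul, smul_smul]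
    congr 1
    ring
  · intro i j hij
    have := hU' i j
    rw [D.U_lower i j hij, mul_zero] at this
    exact_mod_cast this
  · intro i
    have := hU' i i
    rw [D.U_diag i, mul_one] at this
    exact_mod_cast this
  · apply Int.cast_injective (α := ℚ)
    push_cast
    simp_rw [hδ']
    rw [Finset.prod_mul_distrib, Finset.prod_const, Finset.card_univ, Fintype.card_fin, D.δ_prod]

theorem gs_even_qfZ (A : Matrix (Fin 4) (Fin 4) ℤ) (hs : A.IsSymm) (he : ∀ i, Even (A i i))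
    (x : Fin 4 → ℤ) : Even (qfZ A x) := by
  obtain ⟨a0, h0⟩ := he 0
  obtain ⟨a1, h1⟩ := he 1
  obtain ⟨a2, h2⟩ := he 2
  obtain ⟨a3, h3⟩ := he 3
  have s10 : A 1 0 = A 0 1 := hs.apply 0 1
  have s20 : A 2 0 = A 0 2 := hs.apply 0 2
  have s30 : A 3 0 = A 0 3 := hs.apply 0 3
  have s21 : A 2 1 = A 1 2 := hs.apply 1 2
  have s31 : A 3 1 = A 1 3 := hs.apply 1 3
  have s32 : A 3 2 = A 2 3 := hs.apply 2 3
  refine ⟨a0 * x 0 ^ 2 + a1 * x 1 ^ 2 + a2 * x 2 ^ 2 + a3 * x 3 ^ 2 + A 0 1 * x 0 * x 1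
    + A 0 2 * x 0 * x 2 + A 0 3 * x 0 * x 3 + A 1 2 * x 1 * x 2 + A 1 3 * x 1 * x 3
    + A 2 3 * x 2 * x 3, ?_⟩
  simp only [qfZ, dotProduct, mulVec, Fin.sum_univ_four]
  rw [s10, s20, s30, s21, s31, s32, h0, h1, h2, h3]
  ring

theorem gs_finEquiv_apply (t : ℕ) [NeZero t] (g : Fin t) :
    ZMod.finEquiv t g = ((g : ℕ) : ZMod t) := by
  cases t with
  | zero => exact absurd rfl (NeZero.ne 0)
  | succ n =>
    exact (Fin.cast_val_eq_self g).symm

theorem gs_two_ne_zero {t : ℕ} [ht : Fact t.Prime] (h2 : t ≠ 2) : (2 : ZMod t) ≠ 0 := by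
  intro h
  have h1 : ((2 : ℕ) : ZMod t) = 0 := by exact_mod_cast h
  rw [ZMod.natCast_eq_zero_iff] at h1
  exact h2 ((Nat.prime_dvd_prime_iff_eq ht.out Nat.prime_two).mp h1)

theorem gs_term_eq {t : ℕ} [ht : Fact t.Prime] (h2 : t ≠ 2) (β q : ℤ) (hq : Even q) :
    cexp (Real.pi * I * β * (q : ℂ) / t)
      = ZMod.stdAddChar (N := t) ((β : ZMod t) * (2 : ZMod t)⁻¹ * (q : ZMod t)) := by
  obtain ⟨h, rfl⟩ := hq
  have h2' := gs_two_ne_zero h2
  have h1 : (β : ZMod t) * (2 : ZMod t)⁻¹ * ((h + h : ℤ) : ZMod t) = ((β * h : ℤ) : ZMod t) := by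
    push_cast
    field_simp
    ring
  rw [h1, ZMod.stdAddChar_coe]
  congr 1
  push_cast
  ring


theorem gs_cast_qfZ (t : ℕ) (A : Matrix (Fin 4) (Fin 4) ℤ) (x : Fin 4 → ℤ) :
    ((qfZ A x : ℤ) : ZMod t) = (fun i => (x i : ZMod t)) ⬝ᵥ
      (A.map (Int.cast : ℤ → ZMod t)) *ᵥ (fun i => (x i : ZMod t)) := by
  simp [qfZ, dotProduct, mulVec]

/-- **Θ3.** The quaternary Gauss sum of a `ThetaData` equals `t ^ 2` for all primes `t` outside a
finite set. -/
theorem th_gaussSum {p : ℕ} (D : ThetaData p) (hp : p.Prime) :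
    ∃ M : ℕ, 0 < M ∧ ∀ t : ℕ, t.Prime → ¬ t ∣ M → ∀ β : ℤ, ¬ (t : ℤ) ∣ β →
      gaussSum4 D.A β t = (t : ℂ) ^ 2 := by
  classical
  obtain ⟨d, U', δ', hd, hid, hlow, hdiag, hprod⟩ := gs_exists_int_ldl D
  refine ⟨2 * p * d, Nat.mul_pos (Nat.mul_pos two_pos hp.pos) hd, ?_⟩
  intro t ht htM β hβ
  have : Fact t.Prime := ⟨ht⟩
  have h2 : t ≠ 2 := by
    rintro rfl
    exact htM (Dvd.dvd.mul_right (Dvd.intro _ rfl) d)
  have htp : ¬ t ∣ p := fun h => htM (Dvd.dvd.mul_right (Dvd.dvd.mul_left h 2) d)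
  have htd : ¬ t ∣ d := fun h => htM (Dvd.dvd.mul_left h (2 * p))
  have hd0 : (d : ZMod t) ≠ 0 := by rwa [Ne, ZMod.natCast_eq_zero_iff]
  have hp0 : (p : ZMod t) ≠ 0 := by rwa [Ne, ZMod.natCast_eq_zero_iff]
  have hβ0 : (β : ZMod t) ≠ 0 := by rwa [Ne, ZMod.intCast_zmod_eq_zero_iff_dvd]
  have h20 := gs_two_ne_zero h2
  set Ā : Matrix (Fin 4) (Fin 4) (ZMod t) := D.A.map (Int.cast : ℤ → ZMod t) with hĀ
  set W : Matrix (Fin 4) (Fin 4) (ZMod t) := U'.map (Int.cast : ℤ → ZMod t) with hW'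
  set e : Fin 4 → ZMod t := fun i => (δ' i : ZMod t) with he'
  set κ : ZMod t := (d : ZMod t) ^ 3 with hκ'
  set c : ZMod t := (β : ZMod t) * (2 : ZMod t)⁻¹ with hc'
  have hκ : κ ≠ 0 := pow_ne_zero _ hd0
  have hc : c ≠ 0 := mul_ne_zero hβ0 (inv_ne_zero h20)
  have hidF : κ • Ā = Wᵀ * Matrix.diagonal e * W := by
    have h1 := congrArg (fun M : Matrix (Fin 4) (Fin 4) ℤ => M.map (Int.cast : ℤ → ZMod t)) hid
    beta_reduce at h1
    have h3 : (U'ᵀ * Matrix.diagonal δ' * U').map (Int.cast : ℤ → ZMod t)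
        = (U'.map (Int.cast : ℤ → ZMod t))ᵀ * (Matrix.diagonal δ').map (Int.cast : ℤ → ZMod t)
          * U'.map (Int.cast : ℤ → ZMod t) := by
      have h4 := Matrix.map_mul (L := U'ᵀ * Matrix.diagonal δ') (M := U')
        (f := Int.castRingHom (ZMod t))
      have h5 := Matrix.map_mul (L := U'ᵀ) (M := Matrix.diagonal δ')
        (f := Int.castRingHom (ZMod t))
      simp only [Int.coe_castRingHom] at h4 h5
      rw [h4, h5, Matrix.transpose_map]
    have h6 : (Matrix.diagonal δ').map (Int.cast : ℤ → ZMod t) = Matrix.diagonal e := by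
      ext i j
      by_cases hij : i = j
      · subst hij
        simp [he']
      · simp [Matrix.diagonal_apply_ne _ hij]
    have h7 : ((d : ℤ) ^ 3 • D.A).map (Int.cast : ℤ → ZMod t) = κ • Ā := by
      ext i j
      simp only [Matrix.map_apply, Matrix.smul_apply, smul_eq_mul, hκ', hĀ]
      push_cast
      ring
    rw [h7, h3, h6] at h1
    exact h1
  have hWdet : W.det ≠ 0 := by
    have hup : W.IsUpperTriangular := by
      intro i j hij
      simp only [hW', Matrix.map_apply]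
      rw [hlow i j hij, Int.cast_zero]
    rw [Matrix.det_of_isUpperTriangular hup]
    have : ∀ i, W i i = (d : ZMod t) := by
      intro i
      simp only [hW', Matrix.map_apply]
      rw [hdiag i]
      simp
    simp only [this, Finset.prod_const, Finset.card_univ, Fintype.card_fin]
    exact pow_ne_zero _ hd0
  have hprodF : ∏ i, e i = (d : ZMod t) ^ 4 * (p : ZMod t) ^ 2 := by
    have := congrArg (Int.cast : ℤ → ZMod t) hprod
    push_cast at this
    exact this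
  have he : ∀ i, e i ≠ 0 := by
    intro i hi
    have h0 : ∏ i, e i = 0 := Finset.prod_eq_zero (Finset.mem_univ i) hi
    rw [hprodF] at h0
    exact (mul_ne_zero (pow_ne_zero _ hd0) (pow_ne_zero _ hp0)) h0
  have hsum : gaussSum4 D.A β t
      = ∑ x : Fin 4 → ZMod t, ZMod.stdAddChar (N := t) (c * (x ⬝ᵥ Ā *ᵥ x)) := by
    unfold gaussSum4
    have hterm : ∀ g : Fin 4 → Fin t,
        cexp (Real.pi * I * β * (qfZ D.A (fun i => ((g i : ℕ) : ℤ)) : ℂ) / t)
        = ZMod.stdAddChar (N := t) (c * ((fun i => ((g i : ℕ) : ZMod t)) ⬝ᵥ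
            Ā *ᵥ (fun i => ((g i : ℕ) : ZMod t)))) := by
      intro g
      rw [gs_term_eq h2 β _ (gs_even_qfZ D.A D.A_symm D.A_even _), gs_cast_qfZ]
      simp only [Int.cast_natCast]
      rfl
    rw [Finset.sum_congr rfl fun g _ => hterm g]
    refine Fintype.sum_equiv (Equiv.piCongrRight fun _ => (ZMod.finEquiv t).toEquiv) _ _ ?_
    intro g
    have : (Equiv.piCongrRight fun _ : Fin 4 => (ZMod.finEquiv t).toEquiv) g
        = fun i => ((g i : ℕ) : ZMod t) := by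
      ext i
      simp only [Equiv.piCongrRight_apply, Pi.map_apply, RingEquiv.toEquiv_eq_coe,
        EquivLike.coe_coe]
      exact gs_finEquiv_apply t (g i)
    rw [this]
  rw [hsum, gs_sum_quadratic h2 Ā W e κ c hκ hc he hWdet hidF]
  have hsq : ∏ i, c * κ⁻¹ * e i = (c ^ 2 * (κ⁻¹) ^ 2 * (d : ZMod t) ^ 2 * (p : ZMod t)) ^ 2 := by
    rw [Finset.prod_mul_distrib, Finset.prod_const, Finset.card_univ, Fintype.card_fin, hprodF]
    ring
  rw [hsq, gs_chi_sq, one_mul]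
  exact mul_ne_zero (mul_ne_zero (mul_ne_zero (pow_ne_zero _ hc) (pow_ne_zero _ (inv_ne_zero hκ)))
    (pow_ne_zero _ hd0)) hp0

end Fermat.Agent.S16
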