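import Mathlib
import Fermat.Agent.S16.Theta.Defs
import Fermat.Agent.S16.Theta.GaussSum

/-!
# Theta series sub-project of S16: `Γ₀(p)`-invariance (Θ4)

`th_invariant_of`: from the transformation formula with a Gauss sum factor (the statement of
`th_transform`, block Θ2, taken as a hypothesis `thTransformStmt D`) and the evaluation of the
quaternary Gauss sum at almost all primes (`th_gaussSum`, block Θ3) we get the exact
transformation law `Θ(γ z) = (c z + d)² Θ(z)` for all `γ ∈ Γ₀(p)`.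

Method: replace `γ` by `γ Tⁿ` so that the lower right entry `d + n c` becomes a large prime
(Dirichlet), and use `Θ(z + n) = Θ(z)`.
-/

set_option autoImplicit false

namespace Fermat.Agent.S16

open Matrix Complex ModularGroup
open UpperHalfPlane hiding I
open scoped MatrixGroups

variable {p : ℕ}

/-- The statement of the transformation formula `th_transform` (block Θ2). -/
def thTransformStmt (D : ThetaData p) : Prop :=
  ∀ γ : SL(2, ℤ), (p : ℤ) ∣ γ 1 0 → 0 < γ 1 1 → ∀ z : ℍ,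
    thetaFn D.A ((γ • z : ℍ) : ℂ) =
      gaussSum4 D.A (γ 0 1) (γ 1 1).toNat / ((γ 1 1 : ℤ) : ℂ) ^ 2 *
        ((γ 1 0 : ℂ) * z + (γ 1 1 : ℂ)) ^ 2 * thetaFn D.A z

/-- `Θ(z + n) = Θ(z)`: the quadratic form takes even values. -/
theorem thi_thetaFn_add_int (D : ThetaData p) (z : ℂ) (n : ℤ) :
    thetaFn D.A (z + n) = thetaFn D.A z := by
  unfold thetaFn
  refine tsum_congr fun x => ?_
  obtain ⟨k, hk⟩ := gs_even_qfZ D.A D.A_symm D.A_even x
  have h1 : (Real.pi : ℂ) * I * (z + n) * (qfZ D.A x : ℂ) =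
      Real.pi * I * z * (qfZ D.A x : ℂ) + ((n * k : ℤ) : ℂ) * (2 * Real.pi * I) := by
    rw [hk]
    push_cast
    ring
  rw [h1, Complex.exp_add, Complex.exp_int_mul_two_pi_mul_I, mul_one]

theorem thi_coe_smul (γ : SL(2, ℤ)) (z : ℍ) :
    ((γ • z : ℍ) : ℂ) =
      ((γ 0 0 : ℂ) * z + (γ 0 1 : ℂ)) / ((γ 1 0 : ℂ) * z + (γ 1 1 : ℂ)) := by
  rw [UpperHalfPlane.coe_specialLinearGroup_apply]
  simp

theorem thi_det (γ : SL(2, ℤ)) : γ 0 0 * γ 1 1 - γ 0 1 * γ 1 0 = 1 := by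
  have h := γ.det_coe
  rw [Matrix.det_fin_two] at h
  exact h

/-- The case `c = 0`. -/
theorem thi_invariant_of_c_eq_zero (D : ThetaData p) (γ : SL(2, ℤ)) (hc : γ 1 0 = 0) (z : ℍ) :
    thetaFn D.A ((γ • z : ℍ) : ℂ) =
      ((γ 1 0 : ℂ) * z + (γ 1 1 : ℂ)) ^ 2 * thetaFn D.A z := by
  have hdet := thi_det γ
  rw [hc, mul_zero, sub_zero] at hdet
  rw [thi_coe_smul, hc]
  rcases Int.eq_one_or_neg_one_of_mul_eq_one' hdet with ⟨ha, hd⟩ | ⟨ha, hd⟩
  · rw [ha, hd]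
    have : ((1 : ℤ) : ℂ) * (z : ℂ) + (γ 0 1 : ℂ) = (z : ℂ) + (γ 0 1 : ℤ) := by push_cast; ring
    simp only [Int.cast_zero, zero_mul, zero_add, Int.cast_one, one_pow, one_mul, div_one]
    rw [thi_thetaFn_add_int]
  · rw [ha, hd]
    have h1 : (((-1 : ℤ) : ℂ) * (z : ℂ) + (γ 0 1 : ℂ)) / (((0 : ℤ) : ℂ) * z + ((-1 : ℤ) : ℂ)) =
        (z : ℂ) + ((-γ 0 1 : ℤ) : ℂ) := by
      push_cast
      field_simp
      ring
    rw [h1, thi_thetaFn_add_int]
    push_cast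
    ring

/-- Dirichlet: a large prime in the class of `d` modulo `c`. -/
theorem thi_exists_prime (c d : ℤ) (hc : c ≠ 0) (hcd : IsCoprime d c) (M : ℕ) :
    ∃ (t : ℕ) (n : ℤ), M < t ∧ t.Prime ∧ (t : ℤ) = d + n * c := by
  have hq : c.natAbs ≠ 0 := Int.natAbs_ne_zero.mpr hc
  have hcop : IsCoprime d (c.natAbs : ℤ) := by
    rcases Int.natAbs_eq c with h | h
    · rw [← h]; exact hcd
    · have : (c.natAbs : ℤ) = -c := by omega
      rw [this]; exact hcd.neg_right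
  obtain ⟨t, htM, htp, hmod⟩ := Nat.forall_exists_prime_gt_and_zmodEq M hq hcop
  have hdvd : (c.natAbs : ℤ) ∣ (t : ℤ) - d := by
    have := hmod.symm.dvd
    exact this
  have hdvd' : c ∣ (t : ℤ) - d := Int.natAbs_dvd.mp hdvd
  obtain ⟨n, hn⟩ := hdvd'
  exact ⟨t, n, htM, htp, by linarith⟩

/-- **Θ4** from the transformation formula: exact `Γ₀(p)`-invariance of the theta series. -/
theorem th_invariant_of (D : ThetaData p) (hp : p.Prime) (hT : thTransformStmt D)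
    (γ : SL(2, ℤ)) (hγ : (p : ℤ) ∣ γ 1 0) (z : ℍ) :
    thetaFn D.A ((γ • z : ℍ) : ℂ) =
      ((γ 1 0 : ℂ) * z + (γ 1 1 : ℂ)) ^ 2 * thetaFn D.A z := by
  by_cases hc : γ 1 0 = 0
  · exact thi_invariant_of_c_eq_zero D γ hc z
  obtain ⟨M, hM, hG⟩ := th_gaussSum D hp
  have hdet := thi_det γ
  have hcop : IsCoprime (γ 1 1) (γ 1 0) := ⟨γ 0 0, -γ 0 1, by linarith⟩
  obtain ⟨t, n, htM, htp, htn⟩ := thi_exists_prime (γ 1 0) (γ 1 1) hc hcop M
  -- the matrix `γ' = γ Tⁿ`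
  set γ' : SL(2, ℤ) := γ * T ^ n with hγ'
  have e00 : γ' 0 0 = γ 0 0 := by
    simp [hγ', Matrix.SpecialLinearGroup.coe_mul, ModularGroup.coe_T_zpow, Matrix.mul_apply,
      Fin.sum_univ_two]
  have e01 : γ' 0 1 = γ 0 0 * n + γ 0 1 := by
    simp [hγ', Matrix.SpecialLinearGroup.coe_mul, ModularGroup.coe_T_zpow, Matrix.mul_apply,
      Fin.sum_univ_two]
  have e10 : γ' 1 0 = γ 1 0 := by
    simp [hγ', Matrix.SpecialLinearGroup.coe_mul, ModularGroup.coe_T_zpow, Matrix.mul_apply,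
      Fin.sum_univ_two]
  have e11 : γ' 1 1 = (t : ℤ) := by
    simp [hγ', Matrix.SpecialLinearGroup.coe_mul, ModularGroup.coe_T_zpow, Matrix.mul_apply,
      Fin.sum_univ_two]
    linarith
  -- the point `z' = T⁻ⁿ z`
  set z' : ℍ := T ^ (-n) • z with hz'
  have hz'c : (z' : ℂ) = (z : ℂ) + ((-n : ℤ) : ℂ) := by
    rw [hz', ModularGroup.coe_T_zpow_smul_eq]
  have hsmul : γ' • z' = γ • z := by
    rw [hγ', hz', mul_smul, ← mul_smul (T ^ n), ← _root_.zpow_add]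
    simp
  have htpos : (0 : ℤ) < γ' 1 1 := by
    rw [e11]; exact_mod_cast htp.pos
  have key := hT γ' (by rw [e10]; exact hγ) htpos z'
  rw [hsmul] at key
  rw [key, e11, e10, e01, Int.toNat_natCast]
  -- the Gauss sum
  have htb : ¬ (t : ℤ) ∣ γ 0 0 * n + γ 0 1 := by
    intro hdvd
    have hdet' := thi_det γ'
    rw [e00, e01, e10, e11] at hdet'
    have h1 : (t : ℤ) ∣ 1 := by
      rw [← hdet']
      exact dvd_sub (Dvd.intro_left _ rfl) (hdvd.mul_right _)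
    have h2 : (t : ℤ) = 1 := Int.eq_one_of_dvd_one (by positivity) h1
    have h3 : t = 1 := by exact_mod_cast h2
    exact htp.one_lt.ne' h3
  have htM' : ¬ t ∣ M := Nat.not_dvd_of_pos_of_lt hM htM
  rw [hG t htp htM' _ htb]
  have ht0 : ((t : ℤ) : ℂ) ≠ 0 := by
    have := htp.pos.ne'
    exact_mod_cast this
  rw [hz'c, thi_thetaFn_add_int]
  have hlin : ((γ 1 0 : ℤ) : ℂ) * ((z : ℂ) + ((-n : ℤ) : ℂ)) + ((t : ℤ) : ℂ) =
      (γ 1 0 : ℂ) * z + (γ 1 1 : ℂ) := by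
    have : ((t : ℤ) : ℂ) = (γ 1 1 : ℂ) + (n : ℂ) * (γ 1 0 : ℂ) := by
      rw [htn]; push_cast; ring
    rw [this]
    push_cast
    ring
  rw [hlin]
  have : ((t : ℕ) : ℂ) = ((t : ℤ) : ℂ) := by push_cast; rfl
  rw [this, div_self (pow_ne_zero 2 ht0), one_mul]

end Fermat.Agent.S16
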