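import Fermat.Agent.S16.Theta.Poisson4
import Fermat.Agent.S16.Theta.GaussSum

/-!
# S16 / Theta (Θ2): the transformation formula of the theta series under `Γ₀(p)`

For `γ = (a b; c d)` with `p ∣ c`, `d > 0`:
`Θ_A(γ z) = G(b, d) / d² · (c z + d)² · Θ_A(z)` with the Gauss sum `G(b, d) = gaussSum4 A b d`.
-/

set_option autoImplicit false

namespace Fermat.Agent.S16

open Matrix Complex

variable {p : ℕ}

/-! ### Algebra of the quadratic forms -/

theorem tr_qfZ_add_smul (M : Matrix (Fin 4) (Fin 4) ℤ) (hs : M.IsSymm) (g m : Fin 4 → ℤ) (k : ℤ) :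
    qfZ M (g + k • m) = qfZ M g + 2 * k * (g ⬝ᵥ M *ᵥ m) + k ^ 2 * qfZ M m := by
  have s10 : M 1 0 = M 0 1 := hs.apply 0 1
  have s20 : M 2 0 = M 0 2 := hs.apply 0 2
  have s30 : M 3 0 = M 0 3 := hs.apply 0 3
  have s21 : M 2 1 = M 1 2 := hs.apply 1 2
  have s31 : M 3 1 = M 1 3 := hs.apply 1 3
  have s32 : M 3 2 = M 2 3 := hs.apply 2 3
  simp only [qfZ, dotProduct, mulVec, Fin.sum_univ_four, Pi.add_apply, Pi.smul_apply, smul_eq_mul]
  rw [s10, s20, s30, s21, s31, s32]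
  ring

theorem tr_qfZ_smul (M : Matrix (Fin 4) (Fin 4) ℤ) (k : ℤ) (x : Fin 4 → ℤ) :
    qfZ M (k • x) = k ^ 2 * qfZ M x := by
  simp only [qfZ, dotProduct, mulVec, Fin.sum_univ_four, Pi.smul_apply, smul_eq_mul]
  ring

theorem tr_A_mulVec_B (D : ThetaData p) (y : Fin 4 → ℤ) :
    D.A *ᵥ (D.B *ᵥ y) = (p : ℤ) • y := by
  rw [mulVec_mulVec, D.mul_eq, smul_mulVec, one_mulVec]

theorem tr_qfZ_A_B (D : ThetaData p) (y : Fin 4 → ℤ) :
    qfZ D.A (D.B *ᵥ y) = (p : ℤ) * qfZ D.B y := by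
  unfold qfZ
  rw [tr_A_mulVec_B, dotProduct_smul, dotProduct_comm, smul_eq_mul]

theorem tr_qfR_div (M : Matrix (Fin 4) (Fin 4) ℤ) (x : Fin 4 → ℤ) (d : ℝ) :
    qfR M (fun i => (x i : ℝ) / d) = ((qfZ M x : ℤ) : ℝ) / d ^ 2 := by
  rw [qfZ_cast]
  simp only [qfR, dotProduct, mulVec, Fin.sum_univ_four, Matrix.map_apply]
  by_cases hd : d = 0
  · simp [hd]
  · field_simp

/-! ### Exponentials of rational multiples of `π i` -/

theorem tr_cexp_eq (d : ℕ) (hd : 0 < d) (n n' : ℤ) (h : (2 * (d : ℤ)) ∣ n - n') :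
    cexp (Real.pi * I * n / d) = cexp (Real.pi * I * n' / d) := by
  obtain ⟨k, hk⟩ := h
  have hd' : (d : ℂ) ≠ 0 := by exact_mod_cast hd.ne'
  have hn : (n : ℂ) = n' + 2 * d * k := by
    have : n = n' + 2 * d * k := by linarith
    rw [this]; push_cast; ring
  have e : Real.pi * I * n / d = Real.pi * I * n' / d + k * (2 * Real.pi * I) := by
    rw [hn]; field_simp
  rw [e, Complex.exp_add, Complex.exp_int_mul_two_pi_mul_I, mul_one]

/-- The summand of the Gauss sum, as a function on `ℤ⁴`. -/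
noncomputable def tr_phi (M : Matrix (Fin 4) (Fin 4) ℤ) (β : ℤ) (d : ℕ) (x : Fin 4 → ℤ) : ℂ :=
  cexp (Real.pi * I * ((β * qfZ M x : ℤ) : ℂ) / d)

theorem tr_phi_add_smul (M : Matrix (Fin 4) (Fin 4) ℤ) (hs : M.IsSymm)
    (he : ∀ i, Even (M i i)) (β : ℤ) (d : ℕ) (hd : 0 < d) (x m : Fin 4 → ℤ) :
    tr_phi M β d (x + (d : ℤ) • m) = tr_phi M β d x := by
  unfold tr_phi
  apply tr_cexp_eq d hd
  rw [tr_qfZ_add_smul M hs]
  obtain ⟨q, hq⟩ := gs_even_qfZ M hs he m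
  refine ⟨β * (x ⬝ᵥ M *ᵥ m) + β * d * q, ?_⟩
  rw [hq]
  ring

theorem tr_phi_congr (M : Matrix (Fin 4) (Fin 4) ℤ) (hs : M.IsSymm)
    (he : ∀ i, Even (M i i)) (β : ℤ) (d : ℕ) (hd : 0 < d) (x x' : Fin 4 → ℤ)
    (h : ∀ i, (d : ℤ) ∣ x i - x' i) : tr_phi M β d x = tr_phi M β d x' := by
  choose m hm using h
  have : x = x' + (d : ℤ) • m := by
    funext i
    simp only [Pi.add_apply, Pi.smul_apply, smul_eq_mul]
    linarith [hm i]
  rw [this, tr_phi_add_smul M hs he β d hd]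

theorem tr_gaussSum4_eq (M : Matrix (Fin 4) (Fin 4) ℤ) (β : ℤ) (d : ℕ) :
    gaussSum4 M β d = ∑ g : Fin 4 → Fin d, tr_phi M β d (fun i => ((g i : ℕ) : ℤ)) := by
  unfold gaussSum4 tr_phi
  refine Finset.sum_congr rfl fun g _ => ?_
  congr 1
  push_cast
  ring

/-- Shift invariance of the Gauss sum. -/
theorem tr_sum_shift (M : Matrix (Fin 4) (Fin 4) ℤ) (hs : M.IsSymm)
    (he : ∀ i, Even (M i i)) (β : ℤ) (d : ℕ) (hd : 0 < d) (v : Fin 4 → ℤ) :
    ∑ g : Fin 4 → Fin d, tr_phi M β d ((fun i => ((g i : ℕ) : ℤ)) + v) = gaussSum4 M β d := by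
  have : NeZero d := ⟨hd.ne'⟩
  rw [tr_gaussSum4_eq]
  let vbar : Fin 4 → Fin d := fun i => Fin.ofNat d ((v i % d).toNat)
  have hvbar : ∀ i, ((vbar i : ℕ) : ℤ) = v i % d := by
    intro i
    have h0 : 0 ≤ v i % d := Int.emod_nonneg _ (by exact_mod_cast hd.ne')
    have h1 : v i % d < d := Int.emod_lt_of_pos _ (by exact_mod_cast hd)
    simp only [vbar, Fin.val_ofNat]
    have : (v i % d).toNat < d := by
      have := (Int.toNat_lt h0).mpr h1
      exact this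
    rw [Nat.mod_eq_of_lt this, Int.toNat_of_nonneg h0]
  rw [← Equiv.sum_comp (Equiv.addRight vbar)
    (fun g : Fin 4 → Fin d => tr_phi M β d (fun i => ((g i : ℕ) : ℤ)))]
  refine Finset.sum_congr rfl fun g _ => ?_
  apply tr_phi_congr M hs he β d hd
  intro i
  simp only [Pi.add_apply, Equiv.coe_addRight, Fin.val_add]
  rw [Int.natCast_mod, Nat.cast_add, hvbar]
  have h1 : ((d : ℤ)) ∣ (v i - v i % d) := Int.dvd_self_sub_emod
  have h2 : (d : ℤ) ∣ ((((g i : ℕ) : ℤ) + v i % d) - (((g i : ℕ) : ℤ) + v i % d) % d) :=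
    Int.dvd_self_sub_emod
  have : ((g i : ℕ) : ℤ) + v i - (((g i : ℕ) : ℤ) + v i % d) % d =
      (v i - v i % d) + ((((g i : ℕ) : ℤ) + v i % d) - (((g i : ℕ) : ℤ) + v i % d) % d) := by ring
  rw [this]
  exact dvd_add h1 h2

/-- The key finite identity: completing the square in the Gauss sum. -/
theorem tr_claim (D : ThetaData p) (b c c' t : ℤ) (d : ℕ) (hd : 0 < d) (hc : c = p * c')
    (ht : (d : ℤ) ∣ t * p - 1) (hbc : (d : ℤ) ∣ b * c + 1) (y : Fin 4 → ℤ) :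
    ∑ g : Fin 4 → Fin d, cexp (Real.pi * I *
      ((-(c' * qfZ D.B y) + (b * qfZ D.A (fun i => ((g i : ℕ) : ℤ)) +
        2 * (y ⬝ᵥ fun i => ((g i : ℕ) : ℤ))) : ℤ) : ℂ) / d) = gaussSum4 D.A b d := by
  subst hc
  obtain ⟨k1, hk1⟩ := ht
  obtain ⟨k2, hk2⟩ := hbc
  obtain ⟨q, hq⟩ := gs_even_qfZ D.B D.B_symm D.B_even y
  have e1 : t * p = 1 + d * k1 := by linarith
  have e2 : b * (p * c') = d * k2 - 1 := by linarith
  rw [← tr_sum_shift D.A D.A_symm D.A_even b d hd ((-((p * c') * t)) • (D.B *ᵥ y))]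
  refine Finset.sum_congr rfl fun g _ => ?_
  unfold tr_phi
  apply tr_cexp_eq d hd
  rw [tr_qfZ_add_smul _ D.A_symm, tr_A_mulVec_B, tr_qfZ_A_B, dotProduct_smul, smul_eq_mul,
    dotProduct_comm y]
  set gy : ℤ := (fun i => ((g i : ℕ) : ℤ)) ⬝ᵥ y with hgy
  set Qg : ℤ := qfZ D.A (fun i => ((g i : ℕ) : ℤ)) with hQg
  have key : -(c' * qfZ D.B y) + (b * Qg + 2 * gy) -
      b * (Qg + 2 * -((p : ℤ) * c' * t) * ((p : ℤ) * gy) +
        (-((p : ℤ) * c' * t)) ^ 2 * ((p : ℤ) * qfZ D.B y)) =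
      2 * gy * (1 + (b * (p * c')) * (t * p)) -
        qfZ D.B y * c' * (1 + (b * (p * c')) * ((t * p) * (t * p))) := by ring
  rw [key, e2, e1, hq]
  refine ⟨gy * (k2 - k1 + d * k1 * k2) - q * c' * (-2 * k1 - d * k1 ^ 2 + k2 * (1 + d * k1) ^ 2), ?_⟩
  ring

/-! ### The decomposition `ℤ⁴ ≃ (ℤ/d)⁴ × ℤ⁴` -/

/-- Decomposition `x = m * d + g` of `ℤ⁴`. -/
noncomputable def tr_equiv (d : ℕ) [NeZero d] : (Fin 4 → Fin d) × (Fin 4 → ℤ) ≃ (Fin 4 → ℤ) :=
  (((Equiv.piCongrRight fun _ : Fin 4 => Int.divModEquiv d).trans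
    (Equiv.arrowProdEquivProdArrow _ _ _)).trans (Equiv.prodComm _ _)).symm

theorem tr_equiv_apply (d : ℕ) [NeZero d] (g : Fin 4 → Fin d) (m : Fin 4 → ℤ) (i : Fin 4) :
    tr_equiv d (g, m) i = m i * d + ((g i : ℕ) : ℤ) := rfl

theorem tr_term (M : Matrix (Fin 4) (Fin 4) ℤ) (b : ℤ) (d : ℕ) (hd : 0 < d) (w τ' : ℂ)
    (hw : w = b / d + τ' / d ^ 2) (x : Fin 4 → ℤ) :
    cexp (Real.pi * I * w * (qfZ M x : ℂ)) =
      tr_phi M b d x * cexp (Real.pi * I * τ' * (qfR M (fun i => (x i : ℝ) / d) : ℂ)) := by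
  have hd' : (d : ℂ) ≠ 0 := by exact_mod_cast hd.ne'
  unfold tr_phi
  rw [← Complex.exp_add, tr_qfR_div, hw]
  congr 1
  push_cast
  field_simp

/-- The theta series in terms of the dual series (Poisson with zero shift). -/
theorem tr_theta_dual (D : ThetaData p) {z : ℂ} (hz : 0 < z.im) :
    thetaFn D.A z = -(z ^ 2)⁻¹ * (p : ℂ)⁻¹ *
      ∑' y : Fin 4 → ℤ, cexp (-Real.pi * I * (qfZ D.B y : ℂ) / (p * z)) := by
  have h := th_poisson D (th_p_pos D) hz 0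
  have hL : ∀ m : Fin 4 → ℤ,
      cexp (Real.pi * I * z *
        (qfR D.A (fun i => (m i : ℝ) + (0 : Fin 4 → ℝ) i) : ℂ)) =
      cexp (Real.pi * I * z * (qfZ D.A m : ℂ)) := by
    intro m
    have : qfR D.A (fun i => (m i : ℝ) + (0 : Fin 4 → ℝ) i) = ((qfZ D.A m : ℤ) : ℝ) := by
      rw [qfZ_cast]; simp
    rw [this]
    push_cast
    rfl
  have hR : ∀ y : Fin 4 → ℤ,
      cexp (-Real.pi * I * (qfZ D.B y : ℂ) / (p * z) +
          2 * Real.pi * I * (∑ i, (y i : ℂ) * (((0 : Fin 4 → ℝ) i : ℝ) : ℂ))) =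
      cexp (-Real.pi * I * (qfZ D.B y : ℂ) / (p * z)) := by
    intro y
    congr 1
    simp only [Pi.zero_apply, ofReal_zero, mul_zero, Finset.sum_const_zero, add_zero]
  rw [tsum_congr hL, tsum_congr hR] at h
  rw [thetaFn, h]

/-- (Θ2, complex form) the transformation formula for `(a b; c d)`, `p ∣ c`, `d > 0`. -/
theorem th_transform_aux (D : ThetaData p) (a b c : ℤ) (d : ℕ) (hd : 0 < d)
    (hdet : a * d - b * c = 1) (hpc : (p : ℤ) ∣ c) {z : ℂ} (hz : 0 < z.im) :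
    thetaFn D.A (((a : ℂ) * z + b) / ((c : ℂ) * z + d)) =
      gaussSum4 D.A b d / (d : ℂ) ^ 2 * ((c : ℂ) * z + d) ^ 2 * thetaFn D.A z := by
  have : NeZero d := ⟨hd.ne'⟩
  have hp := th_p_pos D
  obtain ⟨c', hc⟩ := hpc
  have hd' : (d : ℂ) ≠ 0 := by exact_mod_cast hd.ne'
  have hdR : (d : ℝ) ≠ 0 := by exact_mod_cast hd.ne'
  have hp' : (p : ℂ) ≠ 0 := by exact_mod_cast hp.ne'
  have hz0 : z ≠ 0 := fun h => by simp [h] at hz
  have hcz : (c : ℂ) * z + d ≠ 0 := by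
    intro h
    have him := congrArg Complex.im h
    have hre := congrArg Complex.re h
    simp at him hre
    rcases him with h1 | h1
    · rw [h1] at hre
      simp at hre
      exact hd.ne' hre
    · exact hz.ne' h1
  have hcz' : z * (c : ℂ) + d ≠ 0 := by rwa [mul_comm]
  set τ' : ℂ := d * z / (c * z + d) with hτ'
  set w : ℂ := (a * z + b) / (c * z + d) with hw
  have hdetC : (a : ℂ) * d - b * c = 1 := by exact_mod_cast hdet
  have hw_eq : w = b / d + τ' / d ^ 2 := by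
    rw [hw, hτ']
    field_simp
    linear_combination z * hdetC
  have hτ0 : τ' ≠ 0 := by
    rw [hτ']
    exact div_ne_zero (mul_ne_zero hd' hz0) hcz
  have hτim : 0 < τ'.im := by
    have h1 : (-1 / τ') = ((-(c : ℝ) / d : ℝ) : ℂ) + -1 / z := by
      rw [hτ']; push_cast; field_simp; ring
    have h2 : 0 < (-1 / τ').im := by
      rw [h1, add_im, ofReal_im, zero_add]
      exact gp_im_neg_inv hz
    have h3 : τ' = -1 / (-1 / τ') := by field_simp
    rw [h3]; exact gp_im_neg_inv h2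
  have hwim : 0 < w.im := by
    have : w = ((b / d : ℝ) : ℂ) + (((d : ℝ) ^ 2)⁻¹ : ℝ) * τ' := by
      rw [hw_eq]; push_cast; ring
    rw [this, add_im, ofReal_im, zero_add, im_ofReal_mul]
    positivity
  -- Step A: split the sum over residues mod `d`
  have hsum : Summable (fun x : Fin 4 → ℤ => cexp (Real.pi * I * w * (qfZ D.A x : ℂ))) :=
    th_summable_thetaFn D hwim
  have hA : thetaFn D.A w = ∑ g : Fin 4 → Fin d, ∑' m : Fin 4 → ℤ,
      cexp (Real.pi * I * w * (qfZ D.A (tr_equiv d (g, m)) : ℂ)) := by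
    have hs' : Summable (fun q : (Fin 4 → Fin d) × (Fin 4 → ℤ) =>
        cexp (Real.pi * I * w * (qfZ D.A (tr_equiv d q) : ℂ))) :=
      (tr_equiv d).summable_iff.mpr hsum
    unfold thetaFn
    rw [← (tr_equiv d).tsum_eq, hs'.tsum_prod, tsum_fintype]
  -- Step B, C: Poisson summation on each residue class
  have hB : ∀ g : Fin 4 → Fin d, ∑' m : Fin 4 → ℤ,
      cexp (Real.pi * I * w * (qfZ D.A (tr_equiv d (g, m)) : ℂ)) =
      tr_phi D.A b d (fun i => ((g i : ℕ) : ℤ)) * (-(τ' ^ 2)⁻¹ * (p : ℂ)⁻¹ *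
        ∑' y : Fin 4 → ℤ, cexp (-Real.pi * I * (qfZ D.B y : ℂ) / (p * τ') +
          2 * Real.pi * I * (∑ i, (y i : ℂ) * (((((g i : ℕ) : ℤ) : ℝ) / d : ℝ) : ℂ)))) := by
    intro g
    rw [← th_poisson D hp hτim (fun i => (((g i : ℕ) : ℤ) : ℝ) / d), ← tsum_mul_left]
    refine tsum_congr fun m => ?_
    rw [tr_term D.A b d hd w τ' hw_eq]
    congr 1
    · have : tr_equiv d (g, m) = (fun i => ((g i : ℕ) : ℤ)) + (d : ℤ) • m := by
        funext i
        simp only [tr_equiv_apply, Pi.add_apply, Pi.smul_apply, smul_eq_mul]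
        ring
      rw [this, tr_phi_add_smul D.A D.A_symm D.A_even b d hd]
    · congr 4
      funext i
      rw [tr_equiv_apply]
      push_cast
      field_simp
  -- Step D: the pointwise identity for the dual terms
  have e1 : (1 : ℂ) / (p * τ') = c' / d + 1 / (p * z) := by
    have hcC : (c : ℂ) = p * c' := by exact_mod_cast hc
    rw [hτ', hcC]
    field_simp
  have hD : ∀ (g : Fin 4 → Fin d) (y : Fin 4 → ℤ),
      tr_phi D.A b d (fun i => ((g i : ℕ) : ℤ)) *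
        cexp (-Real.pi * I * (qfZ D.B y : ℂ) / (p * τ') +
          2 * Real.pi * I * (∑ i, (y i : ℂ) * (((((g i : ℕ) : ℤ) : ℝ) / d : ℝ) : ℂ))) =
      cexp (Real.pi * I * ((-(c' * qfZ D.B y) + (b * qfZ D.A (fun i => ((g i : ℕ) : ℤ)) +
        2 * (y ⬝ᵥ fun i => ((g i : ℕ) : ℤ))) : ℤ) : ℂ) / d) *
        cexp (-Real.pi * I * (qfZ D.B y : ℂ) / (p * z)) := by
    intro g y
    unfold tr_phi
    rw [← Complex.exp_add, ← Complex.exp_add]
    congr 1
    simp only [dotProduct, Fin.sum_univ_four]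
    push_cast
    linear_combination (-Real.pi * I * (qfZ D.B y : ℂ)) * e1
  -- Step E: assemble
  have ht : (d : ℤ) ∣ (-(b * c')) * p - 1 := ⟨-a, by rw [hc] at hdet; linear_combination hdet⟩
  have hbc : (d : ℤ) ∣ b * c + 1 := ⟨a, by linear_combination (-1) * hdet⟩
  have hsumD : ∀ g : Fin 4 → Fin d, Summable fun y : Fin 4 → ℤ =>
      tr_phi D.A b d (fun i => ((g i : ℕ) : ℤ)) *
        cexp (-Real.pi * I * (qfZ D.B y : ℂ) / (p * τ') +
          2 * Real.pi * I * (∑ i, (y i : ℂ) * (((((g i : ℕ) : ℤ) : ℝ) / d : ℝ) : ℂ))) :=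
    fun g => (th_summable_dual D hτim _).mul_left _
  have hE : thetaFn D.A w = -(τ' ^ 2)⁻¹ * (p : ℂ)⁻¹ * (gaussSum4 D.A b d *
      ∑' y : Fin 4 → ℤ, cexp (-Real.pi * I * (qfZ D.B y : ℂ) / (p * z))) := by
    calc thetaFn D.A w = ∑ g : Fin 4 → Fin d, -(τ' ^ 2)⁻¹ * (p : ℂ)⁻¹ * ∑' y : Fin 4 → ℤ,
          (tr_phi D.A b d (fun i => ((g i : ℕ) : ℤ)) *
            cexp (-Real.pi * I * (qfZ D.B y : ℂ) / (p * τ') +
              2 * Real.pi * I * (∑ i, (y i : ℂ) * (((((g i : ℕ) : ℤ) : ℝ) / d : ℝ) : ℂ)))) := by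
          rw [hA]
          refine Finset.sum_congr rfl fun g _ => ?_
          rw [hB g, tsum_mul_left]
          ring
      _ = -(τ' ^ 2)⁻¹ * (p : ℂ)⁻¹ * ∑' y : Fin 4 → ℤ, ∑ g : Fin 4 → Fin d,
          (tr_phi D.A b d (fun i => ((g i : ℕ) : ℤ)) *
            cexp (-Real.pi * I * (qfZ D.B y : ℂ) / (p * τ') +
              2 * Real.pi * I * (∑ i, (y i : ℂ) * (((((g i : ℕ) : ℤ) : ℝ) / d : ℝ) : ℂ)))) := by
          rw [← Finset.mul_sum, Summable.tsum_finsetSum fun g _ => hsumD g]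
      _ = -(τ' ^ 2)⁻¹ * (p : ℂ)⁻¹ * ∑' y : Fin 4 → ℤ,
          gaussSum4 D.A b d * cexp (-Real.pi * I * (qfZ D.B y : ℂ) / (p * z)) := by
          congr 1
          refine tsum_congr fun y => ?_
          rw [Finset.sum_congr rfl fun g _ => hD g y, ← Finset.sum_mul,
            tr_claim D b c c' (-(b * c')) d hd hc ht hbc y]
      _ = _ := by rw [tsum_mul_left]
  rw [hE, tr_theta_dual D hz, hτ']
  field_simp

/-- (Θ2) the transformation formula of the theta series under `γ ∈ Γ₀(p)` with `γ 1 1 > 0`. -/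
theorem th_transform (D : ThetaData p) (γ : Matrix.SpecialLinearGroup (Fin 2) ℤ)
    (hγ : (p : ℤ) ∣ γ 1 0) (hd : 0 < γ 1 1) (z : UpperHalfPlane) :
    thetaFn D.A ((γ • z : UpperHalfPlane) : ℂ) =
      gaussSum4 D.A (γ 0 1) (γ 1 1).toNat / ((γ 1 1 : ℤ) : ℂ) ^ 2 *
        ((γ 1 0 : ℂ) * z + (γ 1 1 : ℂ)) ^ 2 * thetaFn D.A z := by
  have hdn : ((γ 1 1).toNat : ℤ) = γ 1 1 := Int.toNat_of_nonneg hd.le
  have hdn' : 0 < (γ 1 1).toNat := by
    have : (0 : ℤ) < ((γ 1 1).toNat : ℤ) := by rw [hdn]; exact hd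
    exact_mod_cast this
  have hdet : γ 0 0 * ((γ 1 1).toNat : ℤ) - γ 0 1 * γ 1 0 = 1 := by
    rw [hdn]
    have := γ.det_coe
    rw [Matrix.det_fin_two] at this
    linarith
  have h := th_transform_aux D (γ 0 0) (γ 0 1) (γ 1 0) (γ 1 1).toNat hdn' hdet hγ z.im_pos
  have hC : (((γ 1 1).toNat : ℕ) : ℂ) = ((γ 1 1 : ℤ) : ℂ) := by
    rw [← hdn]; push_cast; rfl
  rw [hC] at h
  rw [UpperHalfPlane.coe_specialLinearGroup_apply]
  simpa using h

end Fermat.Agent.S16
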