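import Mathlib
import Fermat.Agent.S16.Theta.Exists
import Fermat.Agent.S16.Theta.Transform
import Fermat.Agent.S16.Theta.Invariance

/-!
# Theta series of S16: the final statements `th_invariant` (Θ4) and `exists_theta` (Θ5)

Unconditional: for every prime `p ≥ 5` there is a modular form of weight `2` and level `Γ₀(p)`
whose `q`-expansion has constant term `1` and all other coefficients even.
-/

set_option autoImplicit false

namespace Fermat.Agent.S16

open Matrix Complex ModularGroup CongruenceSubgroup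
open UpperHalfPlane hiding I
open scoped MatrixGroups ModularForm Manifold

/-- (Θ4) `Γ₀(p)`-invariance of the theta function. -/
theorem th_invariant {p : ℕ} (D : ThetaData p) (hp : p.Prime) (γ : SL(2, ℤ))
    (hγ : (p : ℤ) ∣ γ 1 0) (z : ℍ) :
    thetaFn D.A ((γ • z : ℍ) : ℂ) = ((γ 1 0 : ℂ) * z + (γ 1 1 : ℂ)) ^ 2 * thetaFn D.A z :=
  th_invariant_of D hp (fun γ hγ hd z => th_transform D γ hγ hd z) γ hγ z

/-- (Θ5) existence of the theta series `Θ ≡ 1 mod 2` of weight `2` and level `Γ₀(p)`. -/
theorem exists_theta (p : ℕ) [Fact p.Prime] (hp : 5 ≤ p) :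
    ∃ Θ : ModularForm (Gamma0 p) 2, (qExpansion 1 Θ).coeff 0 = 1 ∧
      ∀ n, 1 ≤ n → ∃ m : ℤ, (qExpansion 1 Θ).coeff n = 2 * m :=
  tf_exists_theta_of_invariant p hp (fun D γ hγ z => th_invariant D Fact.out γ hγ z)

end Fermat.Agent.S16
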